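/-
W2-C (S55) block C, TRANSPORT slice **B-CLS** (owner helper22): INTERFACE.
Definitions and the exact `Prop`s of the sub-slices of `H17C.BClsStatement`.
Nothing here is proved by a placeholder.  Plan: NOTES/W2C-C-BCLS.md.

Conventions: `F : IntermediateField ℚ Qb` finite (and Galois) over `ℚ`; the tensor model of block C
is used for the type `↥F` (a number field by `instNumberFieldSub`).
-/
import Fermat.Agent.CFT2.C.Transport_helper17

set_option autoImplicit false
set_option linter.unusedSectionVars false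
set_option linter.unusedVariables false
set_option linter.style.haveILetI false

noncomputable section

namespace H22BC

open NumberField H14PT H15D

local notation "Qb" => AlgebraicClosure ℚ
local notation "GQ" => (AlgebraicClosure ℚ ≃ₐ[ℚ] AlgebraicClosure ℚ)

/-- a finite subextension of `Qb` is a number field -/
instance instNumberFieldSub (F : IntermediateField ℚ Qb) [FiniteDimensional ℚ F] :
    NumberField F where
  to_charZero := inferInstance
  to_finiteDimensional := inferInstance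

variable (S : Finset Nat.Primes)

/-! ### the map `T_F : F ⊗ ℚ_S → ∏_{q ∈ S} Map(GQ, PadicAlgCl q)` -/

/-- the target ring `∏_{q ∈ S} Map(GQ, PadicAlgCl q)` -/
abbrev FunS : Type := ∀ q : S, GQ → PadicAlgCl ((q : Nat.Primes) : ℕ)

/-- `x ↦ (q, g) ↦ ι_q (g x)` -/
def tLeft (F : IntermediateField ℚ Qb) : F →ₐ[ℚ] FunS S :=
  AlgHom.pi fun q => AlgHom.pi fun g =>
    (padicEmbedding ((q : Nat.Primes) : ℕ)).comp ((g : Qb →ₐ[ℚ] Qb).comp F.val)

/-- `y ↦ (q, g) ↦ y_q` -/
def tRight : H17C.QS S →ₐ[ℚ] FunS S :=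
  AlgHom.pi fun q => AlgHom.pi fun _ =>
    ((algebraMap ℚ_[((q : Nat.Primes) : ℕ)] (PadicAlgCl ((q : Nat.Primes) : ℕ))).comp
      (Pi.evalRingHom (fun q : S => ℚ_[((q : Nat.Primes) : ℕ)]) q)).toRatAlgHom

/-- `T_F : F ⊗ ℚ_S → ∏_{q ∈ S} Map(GQ, PadicAlgCl q)`, `x ⊗ y ↦ (q, g) ↦ ι_q (g x) · y_q` -/
def tF (F : IntermediateField ℚ Qb) [FiniteDimensional ℚ F] : H17C.KS S F →ₐ[ℚ] FunS S :=
  Algebra.TensorProduct.lift (tLeft S F) (tRight S) (fun _ _ => Commute.all _ _)

theorem tF_tmul (F : IntermediateField ℚ Qb) [FiniteDimensional ℚ F] (x : F) (y : H17C.QS S) (q : S) (g : GQ) :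
    tF S F (H17C.tmulS S F x y) q g =
      padicEmbedding ((q : Nat.Primes) : ℕ) (g (x : Qb)) *
        algebraMap ℚ_[((q : Nat.Primes) : ℕ)] (PadicAlgCl ((q : Nat.Primes) : ℕ)) (y q) := by
  show (Algebra.TensorProduct.lift (tLeft S F) (tRight S) (fun _ _ => Commute.all _ _))
    (x ⊗ₜ[ℚ] y) q g = _
  rw [Algebra.TensorProduct.lift_tmul]
  rfl

/-! ### sub-slice **VAL**: valuation subrings of `Qb` and primes of `𝓞_F` outside `S` -/

/-- **(VAL)** (V1) every prime `Q` of `𝓞_F` outside `S` lies under a valuation subring `A` of `Qb`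
over a rational prime `q ∉ S`; (V2) every such `A` lies over a (unique) prime of `𝓞_F` outside
`S`; (V3) if `Q ⊆ 𝔪_A` then `ord_Q a = 0 ↔ a ∈ Aˣ`. -/
def VALStatement : Prop :=
  ∀ (F : IntermediateField ℚ Qb) [FiniteDimensional ℚ F],
    (∀ Q : H17C.PrimesS S F, ∃ (A : ValuationSubring Qb) (q : Nat.Primes), q ∉ S ∧
      A.LiesOverPrime (q : ℕ) ∧ ∀ x : 𝓞 F, x ∈ Q.1 → ((x : F) : Qb) ∈ A.nonunits) ∧
    (∀ (A : ValuationSubring Qb) (q : Nat.Primes), q ∉ S → A.LiesOverPrime (q : ℕ) →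
      ∃ Q : H17C.PrimesS S F, ∀ x : 𝓞 F, x ∈ Q.1 ↔ ((x : F) : Qb) ∈ A.nonunits) ∧
    (∀ (A : ValuationSubring Qb) (Q : H17C.PrimesS S F),
      (∀ x : 𝓞 F, x ∈ Q.1 → ((x : F) : Qb) ∈ A.nonunits) →
      ∀ a : F, a ≠ 0 → (H17C.ordP Q a = 0 ↔ ((a : Qb) ∈ A ∧ ((a : Qb))⁻¹ ∈ A)))

/-! ### sub-slice **UNR-TR**: unramified outside `S` (prelude) ⇒ unramified outside `S` (block C) -/

/-- **(UNR-TR)** -/
def UnrTrStatement : Prop :=
  ∀ (F : IntermediateField ℚ Qb) [FiniteDimensional ℚ F] [IsGalois ℚ F],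
    F.IsUnramifiedOutside S → H17C.UnramOutside S F ⊤

/-! ### sub-slice **S-UNITS** -/

/-- **(S-UNITS)** for `a ∈ Fˣ`: `a ∈ E = sUnits S` iff `div_S a = 0`. -/
def SUnitsStatement : Prop :=
  ∀ (F : IntermediateField ℚ Qb) [FiniteDimensional ℚ F] [IsGalois ℚ F],
    F.IsUnramifiedOutside S → ∀ a : (↥F)ˣ,
      (Units.map ((algebraMap F Qb : F →+* Qb) : F →* Qb) a ∈ sUnits S ↔
        H17C.divS S F (Additive.ofMul a) = 0)

/-! ### sub-slice **CAP** (Kummer) -/

/-- **(CAP)** if `div_S a = p · d` in `F` then `a` has a `p`-th root in a larger Galois `S`-level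
(`p ∈ S`). -/
def CapStatement (p : ℕ) : Prop :=
  p.Prime → (∃ q ∈ S, (q : ℕ) = p) →
  ∀ (F : IntermediateField ℚ Qb) [FiniteDimensional ℚ F] [IsGalois ℚ F],
    F.IsUnramifiedOutside S → ∀ (a : (↥F)ˣ) (d : H17C.DivS S F),
      H17C.divS S F (Additive.ofMul a) = p • d →
      ∃ F' : IntermediateField ℚ Qb, F ≤ F' ∧ F'.IsUnramifiedOutside S ∧ IsGalois ℚ F' ∧
        ∃ w ∈ F', w ^ p = ((a : F) : Qb)

/-! ### sub-slice **LEVEL-FIELD** -/

/-- **(LEVEL-FIELD)** (LF1) an `S`-level is `Gal(Qb/F)` for a finite Galois `F`, unramified outside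
`S`, and `GQ ⧸ U ≅ Aut F` by restriction; (LF2) `Qb^{Gal(Qb/F)} = F`; (LF3) `Gal(Qb/F)` is normal
for normal `F`. -/
def LevelFieldStatement : Prop :=
  (∀ L : (levelsS S).Lv, ∃ (F : IntermediateField ℚ Qb) (_ : FiniteDimensional ℚ F)
      (_ : IsGalois ℚ F), F.IsUnramifiedOutside S ∧ L.U = F.fixingSubgroup ∧
      ∃ e : (GQ ⧸ L.U) ≃* H17C.AutQ F,
        ∀ (g : GQ) (x : F), ((e (g : GQ ⧸ L.U) x : F) : Qb) = g (x : Qb)) ∧
  (∀ (F : IntermediateField ℚ Qb) [FiniteDimensional ℚ F] (x : Qb),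
      (∀ s ∈ F.fixingSubgroup, s x = x) → x ∈ F) ∧
  (∀ (F : IntermediateField ℚ Qb) [FiniteDimensional ℚ F] [IsGalois ℚ F],
      F.fixingSubgroup.Normal)

/-! ### sub-slice **TENSOR-COIND** -/

/-- **(T-INJ)** `T_F` is injective. -/
def TensorInjStatement : Prop :=
  ∀ (F : IntermediateField ℚ Qb) [FiniteDimensional ℚ F], Function.Injective (tF S F)

/-- **(T-SURJ)** the image of `T_F` consists of the functions that are equivariant for the local
groups and right invariant under `Gal(Qb/F)`. -/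
def TensorSurjStatement : Prop :=
  ∀ (F : IntermediateField ℚ Qb) [FiniteDimensional ℚ F] [IsGalois ℚ F] (f : FunS S),
    (∀ (q : S) (τ : PadicAlgCl ((q : Nat.Primes) : ℕ) ≃ₐ[ℚ_[((q : Nat.Primes) : ℕ)]]
        PadicAlgCl ((q : Nat.Primes) : ℕ)) (g : GQ),
      f q (localGaloisToGlobal ((q : Nat.Primes) : ℕ) τ * g) = τ (f q g)) →
    (∀ (q : S) (g s : GQ), s ∈ F.fixingSubgroup → f q (g * s) = f q g) →
    ∃ z : H17C.KS S F, tF S F z = f

/-! ### sub-slice **TOWER**: base change `A_K → A_L` for an arbitrary `K`-algebra `L` -/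

/-- **(TW-FUN)** base change is functorial. -/
def TowerFunStatement : Prop :=
  ∀ (K L M : Type) [Field K] [NumberField K] [Field L] [NumberField L] [Field M] [NumberField M]
    [Algebra K L] [Algebra L M] [Algebra K M] [IsScalarTower K L M] (z : H17C.AmbS S K),
    H17C.ambBase S L M (H17C.ambBase S K L z) = H17C.ambBase S K M z

/-- **(TW-EQV)** base change is equivariant. -/
def TowerEqvStatement : Prop :=
  ∀ (K L : Type) [Field K] [NumberField K] [Field L] [NumberField L] [Algebra K L]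
    (σ : H17C.AutQ L) (σ' : H17C.AutQ K),
    (∀ x : K, algebraMap K L (σ' x) = σ (algebraMap K L x)) → ∀ z : H17C.AmbS S K,
      H17C.ambBase S K L (H17C.ambRep S ℚ K σ' z) = H17C.ambRep S ℚ L σ (H17C.ambBase S K L z)

/-- **(TW-DESC)** descent of classes along `L/K` (`L/ℚ` Galois, unramified outside `S ≠ ∅`):
base change preserves principal elements, is injective on classes, and every
`Gal(L/K)`-invariant class is a base change. -/
def TowerDescStatement : Prop :=
  ∀ (K L : Type) [Field K] [NumberField K] [Field L] [NumberField L] [Algebra K L]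
    [IsGalois ℚ L], S.Nonempty → H17C.UnramOutside S L ⊤ →
    (∀ a : Kˣ, H17C.ambBase S K L (H17C.princHom S K (Additive.ofMul a)) =
      H17C.princHom S L (Additive.ofMul (Units.map ((algebraMap K L : K →+* L) : K →* L) a))) ∧
    (∀ z : H17C.AmbS S K, H17C.ambBase S K L z ∈ H17C.princS S L → z ∈ H17C.princS S K) ∧
    (∀ z : H17C.AmbS S L,
      (∀ σ : H17C.AutQ L, (∀ x : K, σ (algebraMap K L x) = algebraMap K L x) →
        H17C.clsRep S ℚ L σ (H17C.clsMk S L z) = H17C.clsMk S L z) →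
      ∃ w : H17C.AmbS S K, H17C.clsMk S L (H17C.ambBase S K L w) = H17C.clsMk S L z)

end H22BC

end
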