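/-
W2-C (S55) block C, TRANSPORT slice B-CLS (owner helper22), sub-slices LEVEL-FIELD + UNR-TR (helper9):
`H9BL.unrTr S : H22BC.UnrTrStatement S`, `H9BL.levelFieldStmt S : H22BC.LevelFieldStatement S`.
-/
import Fermat.Agent.CFT2.C.BCls.Defs_helper22
import Fermat.Agent.CFT2.C.BClsLevel_helper9

set_option autoImplicit false
set_option linter.unusedSectionVars false
set_option linter.unusedVariables false
set_option linter.style.haveILetI false

noncomputable section

namespace H9BL

open NumberField H17C H15D H22BC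

local notation "Qb" => AlgebraicClosure ℚ
local notation "GQ" => (AlgebraicClosure ℚ ≃ₐ[ℚ] AlgebraicClosure ℚ)

/-- **(UNR-TR)** -/
theorem unrTr (S : Finset Nat.Primes) : UnrTrStatement S :=
  fun F _ _ hF => unramOutside S F hF

/-- **(LEVEL-FIELD)** -/
theorem levelFieldStmt (S : Finset Nat.Primes) : LevelFieldStatement S := by
  refine ⟨?_, ?_, ?_⟩
  · intro L
    obtain ⟨F₀, hF, hn, hU⟩ := L.mem
    haveI := hF.1
    haveI hgal : IsGalois ℚ F₀ := isGalois_of_normal F₀ hn
    exact ⟨F₀, hF.1, hgal, hF, hU, resEquiv F₀ L.U hU,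
      fun g x => resEquiv_apply F₀ L.U hU g x⟩
  · intro F _ x hx
    haveI := isGalois_Qb
    have h1 := InfiniteGalois.fixedField_fixingSubgroup F
    rw [← h1]
    rw [IntermediateField.mem_fixedField_iff]
    exact hx
  · intro F _ hgal
    haveI := isGalois_Qb
    exact (InfiniteGalois.normal_iff_isGalois F).2 hgal

end H9BL
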