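/-
W2-C (S55) block C transport, B-CLS assembly part 1 (helper22): Galois `S`-levels `Lev S`,
the unit map `tI Λ : (KS S Λ.F)ˣ →* ideles S` induced by `tF`, and its elementary properties.
-/
import Fermat.Agent.CFT2.C.BCls.Defs_helper22

set_option autoImplicit false
set_option linter.unusedSectionVars false
set_option linter.unusedVariables false
set_option linter.style.haveILetI false

noncomputable section

namespace H22BC

open NumberField H14PT H15D

local notation "Qb" => AlgebraicClosure ℚ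
local notation "GQ" => (AlgebraicClosure ℚ ≃ₐ[ℚ] AlgebraicClosure ℚ)

/-- primes are prime. -/
local instance factPrimeTI (q : Nat.Primes) : Fact (q : ℕ).Prime := ⟨q.2⟩

variable (S : Finset Nat.Primes)

/-- a Galois `S`-level field -/
structure Lev where
  /-- the field -/
  F : IntermediateField ℚ Qb
  fd : FiniteDimensional ℚ F
  gal : IsGalois ℚ F
  unr : F.IsUnramifiedOutside S

attribute [instance] Lev.fd Lev.gal

variable {S}

/-- conjugates of elements of a normal field stay in the field -/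
theorem map_mem_of_normal (F : IntermediateField ℚ Qb) [Normal ℚ F] (g : GQ) {x : Qb}
    (hx : x ∈ F) : g x ∈ F := by
  have h := AlgEquiv.restrictNormal_commutes g F ⟨x, hx⟩
  have h2 : g x = ((g.restrictNormal F ⟨x, hx⟩ : F) : Qb) := h.symm
  rw [h2]
  exact (g.restrictNormal F ⟨x, hx⟩).2

section tF

variable (F : IntermediateField ℚ Qb) [FiniteDimensional ℚ F]

theorem tF_add (z z' : H17C.KS S F) (q : S) (g : GQ) :
    tF S F (z + z') q g = tF S F z q g + tF S F z' q g := by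
  rw [map_add]
  rfl

theorem tF_zero (q : S) (g : GQ) : tF S F 0 q g = 0 := by
  rw [map_zero]
  rfl

theorem tF_mul (z z' : H17C.KS S F) (q : S) (g : GQ) :
    tF S F (z * z') q g = tF S F z q g * tF S F z' q g := by
  rw [map_mul]
  rfl

theorem tF_one (q : S) (g : GQ) : tF S F 1 q g = 1 := by
  rw [map_one]
  rfl

/-- equivariance for the local groups -/
theorem tF_loc (z : H17C.KS S F) (q : S)
    (τ : PadicAlgCl ((q : Nat.Primes) : ℕ) ≃ₐ[ℚ_[((q : Nat.Primes) : ℕ)]]
      PadicAlgCl ((q : Nat.Primes) : ℕ)) (g : GQ) :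
    tF S F z q (localGaloisToGlobal ((q : Nat.Primes) : ℕ) τ * g) = τ (tF S F z q g) := by
  induction z using H17C.ks_induction with
  | zero => rw [tF_zero, tF_zero, map_zero]
  | tmul x y =>
    rw [tF_tmul, tF_tmul, map_mul, AlgEquiv.commutes, AlgEquiv.mul_apply,
      padicEmbedding_localGaloisToGlobal]
  | add a b ha hb => rw [tF_add, tF_add, ha, hb, map_add]

/-- invariance under `Gal(Qb/F)` inserted anywhere (for normal `F`) -/
theorem tF_level [Normal ℚ F] (z : H17C.KS S F) (q : S) (g g' s : GQ)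
    (hs : s ∈ F.fixingSubgroup) : tF S F z q (g * s * g') = tF S F z q (g * g') := by
  induction z using H17C.ks_induction with
  | zero => rw [tF_zero, tF_zero]
  | tmul x y =>
    rw [tF_tmul, tF_tmul]
    have h1 : (g * s * g') (x : Qb) = (g * g') (x : Qb) := by
      show g (s (g' (x : Qb))) = g (g' (x : Qb))
      rw [(IntermediateField.mem_fixingSubgroup_iff F s).1 hs _ (map_mem_of_normal F g' x.2)]
    rw [h1]
  | add a b ha hb => rw [tF_add, tF_add, ha, hb]

theorem tF_right [Normal ℚ F] (z : H17C.KS S F) (q : S) (g s : GQ)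
    (hs : s ∈ F.fixingSubgroup) : tF S F z q (g * s) = tF S F z q g := by
  have := tF_level F z q g 1 s hs
  rwa [mul_one, mul_one] at this

/-- the action: `T (σ z) (g) = T z (g g̃)` if `g̃` restricts to `σ` -/
theorem tF_ksAut (σ : H17C.AutQ F) (γ : GQ) (hγ : ∀ x : F, γ (x : Qb) = ((σ x : F) : Qb))
    (z : H17C.KS S F) (q : S) (g : GQ) :
    tF S F (H17C.ksAut S ℚ F σ z) q g = tF S F z q (g * γ) := by
  induction z using H17C.ks_induction with
  | zero => rw [map_zero, tF_zero, tF_zero]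
  | tmul x y =>
    rw [H17C.ksAut_tmul, tF_tmul, tF_tmul, AlgEquiv.mul_apply, hγ]
  | add a b ha hb => rw [map_add, tF_add, tF_add, ha, hb]

theorem tF_diag (a : F) (q : S) (g : GQ) :
    tF S F (H17C.diagRing S F a) q g = padicEmbedding ((q : Nat.Primes) : ℕ) (g (a : Qb)) := by
  rw [H17C.diagRing_apply, tF_tmul]
  have : (1 : H17C.QS S) q = 1 := rfl
  rw [this, map_one, mul_one]

end tF

/-! ### the unit map -/

section tI

variable (Λ : Lev S)

/-- the value of `t x` at `(q, g)` as a unit -/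
def tIval (x : (H17C.KS S Λ.F)ˣ) (q : S) (g : GQ) : (PadicAlgCl ((q : Nat.Primes) : ℕ))ˣ :=
  ⟨tF S Λ.F (x : H17C.KS S Λ.F) q g, tF S Λ.F ((x⁻¹ : (H17C.KS S Λ.F)ˣ) : H17C.KS S Λ.F) q g,
    by rw [← tF_mul, Units.mul_inv, tF_one], by rw [← tF_mul, Units.inv_mul, tF_one]⟩

theorem tIval_coe (x : (H17C.KS S Λ.F)ˣ) (q : S) (g : GQ) :
    ((tIval Λ x q g : (PadicAlgCl ((q : Nat.Primes) : ℕ))ˣ) : PadicAlgCl ((q : Nat.Primes) : ℕ)) =
      tF S Λ.F (x : H17C.KS S Λ.F) q g := rfl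

theorem tIval_mem (x : (H17C.KS S Λ.F)ˣ) (q : S) :
    (fun g => tIval Λ x q g) ∈ idele S ((q : Nat.Primes) : ℕ) := by
  refine ⟨fun τ g => ?_, Λ.F, Λ.unr, fun g g' s hs => ?_⟩
  · apply Units.ext
    rw [unitsActLoc_coe, tIval_coe, tIval_coe]
    exact tF_loc Λ.F _ q τ g
  · apply Units.ext
    rw [tIval_coe, tIval_coe]
    exact tF_level Λ.F _ q g g' s hs

/-- the component of `t x` at `q` -/
def tIq (x : (H17C.KS S Λ.F)ˣ) (q : S) : ideleAt S q.1 :=
  (⟨fun g => tIval Λ x q g, tIval_mem Λ x q⟩ : ↥(idele S ((q : Nat.Primes) : ℕ)))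

theorem tIq_fn (x : (H17C.KS S Λ.F)ˣ) (q : S) (g : GQ) :
    ideleAt.fn S (tIq Λ x q) g = tIval Λ x q g := rfl

/-- `t : I_F = (KS S F)ˣ → I = ideles S` -/
def tI : (H17C.KS S Λ.F)ˣ →* ideles S where
  toFun x := fun q => tIq Λ x q
  map_one' := by
    funext q
    apply ideleAt.ext
    intro g
    apply Units.ext
    rw [tIq_fn, tIval_coe, Units.val_one, tF_one]
    rfl
  map_mul' x y := by
    funext q
    apply ideleAt.ext
    intro g
    apply Units.ext
    rw [tIq_fn, tIval_coe, Units.val_mul, tF_mul]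
    rfl

theorem tI_fn (x : (H17C.KS S Λ.F)ˣ) (q : S) (g : GQ) :
    ((ideleAt.fn S (tI Λ x q) g : (PadicAlgCl ((q : Nat.Primes) : ℕ))ˣ) :
      PadicAlgCl ((q : Nat.Primes) : ℕ)) = tF S Λ.F (x : H17C.KS S Λ.F) q g := rfl

/-- two ideles are equal if their values agree -/
theorem ideles_ext {f f' : ideles S}
    (h : ∀ (q : S) (g : GQ), ((ideleAt.fn S (f q) g : (PadicAlgCl ((q : Nat.Primes) : ℕ))ˣ) :
      PadicAlgCl ((q : Nat.Primes) : ℕ)) = ideleAt.fn S (f' q) g) : f = f' := by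
  funext q
  apply ideleAt.ext
  intro g
  apply Units.ext
  exact h q g

/-- (t3) equivariance -/
theorem tI_smul (σ : H17C.AutQ Λ.F) (γ : GQ)
    (hγ : ∀ x : Λ.F, γ (x : Qb) = ((σ x : Λ.F) : Qb)) (x : (H17C.KS S Λ.F)ˣ) :
    tI Λ (σ • x) = γ • tI Λ x := by
  apply ideles_ext
  intro q g
  rw [tI_fn, smul_ideles_apply, ideleAt.fn_smul, tI_fn, H17C.ideleAct_coe]
  exact tF_ksAut Λ.F σ γ hγ _ q g

/-- (t1) injectivity -/
theorem tI_injective (hinj : TensorInjStatement S) : Function.Injective (tI Λ) := by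
  intro x y hxy
  apply Units.ext
  apply hinj Λ.F
  funext q g
  have := congrArg (fun f : ideles S => ((ideleAt.fn S (f q) g :
    (PadicAlgCl ((q : Nat.Primes) : ℕ))ˣ) : PadicAlgCl ((q : Nat.Primes) : ℕ))) hxy
  exact this

/-- (t4) the diagonal -/
theorem tI_diag (a : (↥Λ.F)ˣ)
    (ha : Units.map ((algebraMap Λ.F Qb : Λ.F →+* Qb) : Λ.F →* Qb) a ∈ sUnits S) :
    tI Λ (H17C.diagS S Λ.F a) =
      diag S ⟨Units.map ((algebraMap Λ.F Qb : Λ.F →+* Qb) : Λ.F →* Qb) a, ha⟩ := by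
  apply ideles_ext
  intro q g
  rw [tI_fn]
  show tF S Λ.F (H17C.diagRing S Λ.F (a : Λ.F)) q g = _
  rw [tF_diag]
  rfl

/-- (t2) the image of `t` is the group of `Gal(Qb/F)`-invariant ideles -/
theorem tI_surjective (hinj : TensorInjStatement S) (hsurj : TensorSurjStatement S)
    (f : ideles S) (hf : ∀ s ∈ Λ.F.fixingSubgroup, s • f = f) : ∃ x, tI Λ x = f := by
  have key : ∀ f : ideles S, (∀ s ∈ Λ.F.fixingSubgroup, s • f = f) →
      ∃ z : H17C.KS S Λ.F, ∀ (q : S) (g : GQ), tF S Λ.F z q g =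
        ((ideleAt.fn S (f q) g : (PadicAlgCl ((q : Nat.Primes) : ℕ))ˣ) :
          PadicAlgCl ((q : Nat.Primes) : ℕ)) := by
    intro f hf
    obtain ⟨z, hz⟩ := hsurj Λ.F (fun q g => ((ideleAt.fn S (f q) g :
      (PadicAlgCl ((q : Nat.Primes) : ℕ))ˣ) : PadicAlgCl ((q : Nat.Primes) : ℕ)))
      (fun q τ g => by
        have h1 := (f q).2.1 τ g
        exact congrArg (fun u : (PadicAlgCl ((q : Nat.Primes) : ℕ))ˣ =>
          (u : PadicAlgCl ((q : Nat.Primes) : ℕ))) h1)
      (fun q g s hs => by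
        have h1 := congrArg (fun f' : ideles S => ((ideleAt.fn S (f' q) g :
          (PadicAlgCl ((q : Nat.Primes) : ℕ))ˣ) : PadicAlgCl ((q : Nat.Primes) : ℕ))) (hf s hs)
        exact h1)
    exact ⟨z, fun q g => congrFun (congrFun hz q) g⟩
  obtain ⟨z, hz⟩ := key f hf
  obtain ⟨z', hz'⟩ := key f⁻¹ (fun s hs => by rw [smul_inv', hf s hs])
  have h1 : z * z' = 1 := by
    apply hinj Λ.F
    funext q g
    rw [tF_mul, tF_one, hz, hz']
    show ((ideleAt.fn S (f q) g : (PadicAlgCl ((q : Nat.Primes) : ℕ))ˣ) :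
      PadicAlgCl ((q : Nat.Primes) : ℕ)) * ((ideleAt.fn S (f q) g)⁻¹ :
        (PadicAlgCl ((q : Nat.Primes) : ℕ))ˣ) = 1
    rw [Units.mul_inv]
  refine ⟨⟨z, z', h1, by rw [mul_comm]; exact h1⟩, ?_⟩
  apply ideles_ext
  intro q g
  rw [tI_fn]
  exact hz q g

end tI

end H22BC

end
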