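/-
W2-C (S55) block C transport, B-CLS sub-slice **TOWER**, part 1 (helper22):
`TW-FUN` (functoriality of base change) and `TW-EQV` (equivariance of base change).
-/
import Fermat.Agent.CFT2.C.BCls.Defs_helper22

set_option autoImplicit false
set_option linter.unusedSectionVars false
set_option linter.unusedVariables false
set_option linter.style.haveILetI false

noncomputable section

namespace H22BC

open NumberField

open scoped Pointwise

variable (S : Finset Nat.Primes)

section fun3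

variable (K L M : Type) [Field K] [NumberField K] [Field L] [NumberField L] [Field M]
  [NumberField M] [Algebra K L] [Algebra L M] [Algebra K M] [IsScalarTower K L M]

theorem h22bc_ksBase_comp (z : H17C.KS S K) :
    H17C.ksBase S L M (H17C.ksBase S K L z) = H17C.ksBase S K M z := by
  induction z using H17C.ks_induction with
  | zero => simp only [map_zero]
  | tmul x y =>
    rw [H17C.ksBase_tmul, H17C.ksBase_tmul, H17C.ksBase_tmul,
      ← IsScalarTower.algebraMap_apply K L M]
  | add a b ha hb => simp only [map_add, ha, hb]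

theorem h22bc_under_comp (Q : H17C.PrimesS S M) :
    H17C.PrimesS.under S K L (H17C.PrimesS.under S L M Q) = H17C.PrimesS.under S K M Q := by
  apply Subtype.ext
  show (Q.1.comap (algebraMap (𝓞 L) (𝓞 M))).comap (algebraMap (𝓞 K) (𝓞 L)) =
    Q.1.comap (algebraMap (𝓞 K) (𝓞 M))
  ext x
  simp only [Ideal.mem_comap]
  have e : algebraMap (𝓞 L) (𝓞 M) (algebraMap (𝓞 K) (𝓞 L) x) = algebraMap (𝓞 K) (𝓞 M) x := by
    apply Subtype.ext
    show algebraMap L M (algebraMap K L (x : K)) = algebraMap K M (x : K)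
    rw [← IsScalarTower.algebraMap_apply K L M]
  rw [e]

theorem h22bc_pullDiv_comp (d : H17C.DivS S K) :
    H17SI.pullDiv S L M (H17SI.pullDiv S K L d) = H17SI.pullDiv S K M d := by
  ext Q
  rw [H17SI.h17si_pullDiv_apply, H17SI.h17si_pullDiv_apply, H17SI.h17si_pullDiv_apply,
    h22bc_under_comp]

end fun3

/-- **(TW-FUN)** -/
theorem h22bc_towerFun : TowerFunStatement S := by
  intro K L M _ _ _ _ _ _ _ _ _ _ z
  refine Prod.ext ?_ ?_
  · apply congrArg Additive.ofMul
    apply Units.ext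
    exact h22bc_ksBase_comp S K L M _
  · exact h22bc_pullDiv_comp S K L M z.2

section eqv

variable (K L : Type) [Field K] [NumberField K] [Field L] [NumberField L] [Algebra K L]
  (σ : H17C.AutQ L) (σ' : H17C.AutQ K)
  (hσ : ∀ x : K, algebraMap K L (σ' x) = σ (algebraMap K L x))

include hσ

theorem h22bc_ksBase_ksAut (z : H17C.KS S K) :
    H17C.ksBase S K L (H17C.ksAut S ℚ K σ' z) = H17C.ksAut S ℚ L σ (H17C.ksBase S K L z) := by
  induction z using H17C.ks_induction with
  | zero => simp only [map_zero]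
  | tmul x y =>
    rw [H17C.ksAut_tmul, H17C.ksBase_tmul, H17C.ksBase_tmul, H17C.ksAut_tmul, hσ]
  | add a b ha hb => simp only [map_add, ha, hb]

theorem h22bc_hσ_symm (x : K) : algebraMap K L (σ'.symm x) = σ.symm (algebraMap K L x) := by
  apply σ.injective
  rw [← hσ, AlgEquiv.apply_symm_apply, AlgEquiv.apply_symm_apply]

theorem h22bc_under_smul (Q : H17C.PrimesS S L) :
    H17C.PrimesS.under S K L (σ • Q) = σ' • H17C.PrimesS.under S K L Q := by
  apply Subtype.ext
  rw [H17C.smul_primesS_coe]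
  show (σ • Q.1).comap (algebraMap (𝓞 K) (𝓞 L)) = σ' • (Q.1.comap (algebraMap (𝓞 K) (𝓞 L)))
  ext x
  rw [Ideal.mem_comap, Ideal.mem_pointwise_smul_iff_inv_smul_mem,
    Ideal.mem_pointwise_smul_iff_inv_smul_mem, Ideal.mem_comap]
  have e : σ⁻¹ • algebraMap (𝓞 K) (𝓞 L) x = algebraMap (𝓞 K) (𝓞 L) (σ'⁻¹ • x) := by
    apply Subtype.ext
    show σ.symm (algebraMap K L (x : K)) = algebraMap K L (σ'.symm (x : K))
    exact (h22bc_hσ_symm K L σ σ' hσ _).symm
  rw [e]

theorem h22bc_pullDiv_divRep (d : H17C.DivS S K) :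
    H17SI.pullDiv S K L (H17C.divRep S ℚ K σ' d) =
      H17C.divRep S ℚ L σ (H17SI.pullDiv S K L d) := by
  ext Q
  have h1 : (H17C.divRep S ℚ L σ (H17SI.pullDiv S K L d)) (σ • (σ⁻¹ • Q)) =
      (H17SI.pullDiv S K L d) (σ⁻¹ • Q) := H17C.divRep_apply_smul S ℚ L σ _ _
  rw [smul_inv_smul] at h1
  rw [h1, H17SI.h17si_pullDiv_apply, H17SI.h17si_pullDiv_apply]
  have h2 : (H17C.divRep S ℚ K σ' d) (σ' • (σ'⁻¹ • H17C.PrimesS.under S K L Q)) =
      d (σ'⁻¹ • H17C.PrimesS.under S K L Q) := H17C.divRep_apply_smul S ℚ K σ' _ _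
  rw [smul_inv_smul] at h2
  rw [h2]
  congr 1
  have h3 := h22bc_under_smul S K L σ σ' hσ (σ⁻¹ • Q)
  rw [smul_inv_smul] at h3
  rw [h3, inv_smul_smul]

end eqv

/-- **(TW-EQV)** -/
theorem h22bc_towerEqv : TowerEqvStatement S := by
  intro K L _ _ _ _ _ σ σ' hσ z
  refine Prod.ext ?_ ?_
  · apply congrArg Additive.ofMul
    apply Units.ext
    exact h22bc_ksBase_ksAut S K L σ σ' hσ _
  · exact h22bc_pullDiv_divRep S K L σ σ' hσ z.2

end H22BC

end
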