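/-
W2-C (S55) block C transport, B-CLS sub-slice **TOWER**, part 2 (helper22):
`TW-DESC` (descent of classes along `L/K` for an arbitrary `K`-algebra structure on a Galois `L/ℚ`),
by transport of `H22C.h22c_descCls1/2/3` along `K ≅ L^{Gal(L/K)}`.
-/
import Fermat.Agent.CFT2.C.BCls.Tower1_helper22
import Fermat.Agent.CFT2.C.DescCls_helper22
import Fermat.Agent.CFT2.C.FieldIso_helper22

set_option autoImplicit false
set_option linter.unusedSectionVars false
set_option linter.unusedVariables false
set_option linter.style.haveILetI false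

noncomputable section

namespace H22BC

open NumberField H22C

open scoped Pointwise

variable (S : Finset Nat.Primes)

section desc

variable (K L : Type) [Field K] [NumberField K] [Field L] [NumberField L] [Algebra K L]

/-- the image of `K` in `L` -/
def twRange : IntermediateField ℚ L := ((algebraMap K L).toRatAlgHom).fieldRange

/-- `Gal(L/K)` as a subgroup of `Aut(L)` -/
def twN : Subgroup (H17C.AutQ L) := (twRange K L).fixingSubgroup

theorem mem_twN_iff (σ : H17C.AutQ L) :
    σ ∈ twN K L ↔ ∀ x : K, σ (algebraMap K L x) = algebraMap K L x := by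
  unfold twN
  rw [IntermediateField.mem_fixingSubgroup_iff]
  constructor
  · intro h x
    exact h _ ⟨x, rfl⟩
  · rintro h _ ⟨x, rfl⟩
    exact h x

theorem twFixed [IsGalois ℚ L] : IntermediateField.fixedField (twN K L) = twRange K L :=
  IsGalois.fixedField_fixingSubgroup (twRange K L)

theorem algebraMap_mem_fixed (x : K) :
    algebraMap K L x ∈ IntermediateField.fixedField (twN K L) := by
  rw [IntermediateField.mem_fixedField_iff]
  intro σ hσ
  exact (mem_twN_iff K L σ).1 hσ x

/-- `K → L^{Gal(L/K)}` -/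
def twHom : K →ₐ[ℚ] IntermediateField.fixedField (twN K L) :=
  AlgHom.codRestrict ((algebraMap K L).toRatAlgHom)
    (IntermediateField.fixedField (twN K L)).toSubalgebra (fun x => algebraMap_mem_fixed K L x)

theorem twHom_coe (x : K) : ((twHom K L x : IntermediateField.fixedField (twN K L)) : L) =
    algebraMap K L x := rfl

theorem twHom_bijective [IsGalois ℚ L] : Function.Bijective (twHom K L) := by
  refine ⟨(twHom K L).toRingHom.injective, fun y => ?_⟩
  have hy : (y : L) ∈ twRange K L := by
    rw [← twFixed K L]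
    exact y.2
  obtain ⟨x, hx⟩ := hy
  exact ⟨x, Subtype.ext hx⟩

/-- `K ≅ L^{Gal(L/K)}` -/
def twIso [IsGalois ℚ L] : K ≃ₐ[ℚ] IntermediateField.fixedField (twN K L) :=
  AlgEquiv.ofBijective (twHom K L) (twHom_bijective K L)

theorem twIso_coe [IsGalois ℚ L] (x : K) :
    ((twIso K L x : IntermediateField.fixedField (twN K L)) : L) = algebraMap K L x := rfl

variable [IsGalois ℚ L]

theorem h22bc_ksBase_tw (z : H17C.KS S K) :
    H17C.ksBase S K L z =
      H17C.ksBase S (IntermediateField.fixedField (twN K L)) L (fiKS S (twIso K L) z) := by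
  induction z using H17C.ks_induction with
  | zero => simp only [map_zero]
  | tmul x y =>
    rw [fiKS_tmul, H17C.ksBase_tmul, H17C.ksBase_tmul]
    rfl
  | add a b ha hb => simp only [map_add, ha, hb]

theorem h22bc_under_tw (Q : H17C.PrimesS S L) :
    H17C.PrimesS.under S (IntermediateField.fixedField (twN K L)) L Q =
      fiPrime S (twIso K L) (H17C.PrimesS.under S K L Q) := by
  apply Subtype.ext
  ext y
  rw [mem_fiPrime]
  show algebraMap (𝓞 (IntermediateField.fixedField (twN K L))) (𝓞 L) y ∈ Q.1 ↔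
    algebraMap (𝓞 K) (𝓞 L) ((fiO (twIso K L)).symm y) ∈ Q.1
  have e : algebraMap (𝓞 K) (𝓞 L) ((fiO (twIso K L)).symm y) =
      algebraMap (𝓞 (IntermediateField.fixedField (twN K L))) (𝓞 L) y := by
    apply Subtype.ext
    show algebraMap K L (((fiO (twIso K L)).symm y : 𝓞 K) : K) =
      ((y : IntermediateField.fixedField (twN K L)) : L)
    rw [← twIso_coe K L, ← fiO_coe, RingEquiv.apply_symm_apply]
  rw [e]

theorem h22bc_pullDiv_tw (d : H17C.DivS S K) :
    H17SI.pullDiv S K L d =
      H17SI.pullDiv S (IntermediateField.fixedField (twN K L)) L (fiDiv S (twIso K L) d) := by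
  ext Q
  rw [H17SI.h17si_pullDiv_apply, H17SI.h17si_pullDiv_apply, h22bc_under_tw, fiDiv_apply]

theorem h22bc_ambBase_tw (z : H17C.AmbS S K) :
    H17C.ambBase S K L z =
      H17C.ambBase S (IntermediateField.fixedField (twN K L)) L (fiAmb S (twIso K L) z) := by
  refine Prod.ext ?_ ?_
  · apply congrArg Additive.ofMul
    apply Units.ext
    exact h22bc_ksBase_tw S K L _
  · exact h22bc_pullDiv_tw S K L z.2

theorem h22bc_unram_tw (hunr : H17C.UnramOutside S L ⊤) : H17C.UnramOutside S L (twN K L) :=
  fun Q σ _ h => hunr Q σ (Subgroup.mem_top σ) h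

theorem h22bc_tw_princ (hunr : H17C.UnramOutside S L ⊤) (a : Kˣ) :
    H17C.ambBase S K L (H17C.princHom S K (Additive.ofMul a)) =
      H17C.princHom S L (Additive.ofMul
        (Units.map ((algebraMap K L : K →+* L) : K →* L) a)) := by
  rw [h22bc_ambBase_tw, fiAmb_princ, h22c_ambBase_princ (h22bc_unram_tw S K L hunr)]
  congr 2

theorem h22bc_tw_inj (hS : S.Nonempty) (hunr : H17C.UnramOutside S L ⊤) (z : H17C.AmbS S K)
    (hz : H17C.ambBase S K L z ∈ H17C.princS S L) : z ∈ H17C.princS S K := by
  rw [h22bc_ambBase_tw] at hz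
  have h1 := h22c_descCls2 hS (h22bc_unram_tw S K L hunr) _ hz
  have h2 := fiAmb_mem_princ S (twIso K L).symm h1
  have h3 : fiAmb S (twIso K L).symm (fiAmb S (twIso K L) z) = z := by
    rw [fiAmb_trans]
    have : (twIso K L).trans (twIso K L).symm = AlgEquiv.refl := by
      ext x
      simp
    rw [this, fiAmb_refl]
  have h4 : fiAmb S (twIso K L).symm (fiAmb S (twIso K L) z) ∈ H17C.princS S K := h2
  rwa [h3] at h4

theorem h22bc_tw_desc (hS : S.Nonempty) (hunr : H17C.UnramOutside S L ⊤) (z : H17C.AmbS S L)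
    (hz : ∀ σ : H17C.AutQ L, (∀ x : K, σ (algebraMap K L x) = algebraMap K L x) →
      H17C.clsRep S ℚ L σ (H17C.clsMk S L z) = H17C.clsMk S L z) :
    ∃ w : H17C.AmbS S K, H17C.clsMk S L (H17C.ambBase S K L w) = H17C.clsMk S L z := by
  obtain ⟨w', hw'⟩ := h22c_descCls3 hS (h22bc_unram_tw S K L hunr) z
    (fun h hh => hz h ((mem_twN_iff K L h).1 hh))
  refine ⟨fiAmb S (twIso K L).symm w', ?_⟩
  rw [h22bc_ambBase_tw, fiAmb_trans]
  have : (twIso K L).symm.trans (twIso K L) = AlgEquiv.refl := by
    ext x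
    simp
  rw [this, fiAmb_refl]
  exact hw'

end desc

/-- **(TW-DESC)** -/
theorem h22bc_towerDesc : TowerDescStatement S := by
  intro K L _ _ _ _ _ _ hS hunr
  exact ⟨fun a => h22bc_tw_princ S K L hunr a, fun z hz => h22bc_tw_inj S K L hS hunr z hz,
    fun z hz => h22bc_tw_desc S K L hS hunr z hz⟩

end H22BC

end
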