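/-
W2-C (S55) block C transport, B-CLS assembly part 2 (helper22): towers of Galois `S`-levels
`Λ ≤ Λ₁`: base change `baseAmb`, compatibility of `tI` with base change, restriction of
automorphisms, and the specialisations of TOWER.
-/
import Fermat.Agent.CFT2.C.BCls.TI1_helper22
import Fermat.Agent.CFT2.C.BCls.Tower2_helper22
import Fermat.Agent.CFT2.C.BCls.LevelField_helper9

set_option autoImplicit false
set_option linter.unusedSectionVars false
set_option linter.unusedVariables false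
set_option linter.style.haveILetI false

noncomputable section

namespace H22BC

open NumberField H14PT H15D

local notation "Qb" => AlgebraicClosure ℚ
local notation "GQ" => (AlgebraicClosure ℚ ≃ₐ[ℚ] AlgebraicClosure ℚ)

/-- primes are prime. -/
local instance factPrimeTI2 (q : Nat.Primes) : Fact (q : ℕ).Prime := ⟨q.2⟩

variable {S : Finset Nat.Primes}

/-! ### sup of levels -/

/-- the compositum of two Galois `S`-levels -/
def Lev.sup (Λ Λ' : Lev S) : Lev S where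
  F := Λ.F ⊔ Λ'.F
  fd := IntermediateField.finiteDimensional_sup Λ.F Λ'.F
  gal :=
    haveI : Normal ℚ ↥(Λ.F ⊔ Λ'.F) :=
      @IntermediateField.normal_sup ℚ Qb _ _ _ Λ.F Λ'.F Λ.gal.to_normal Λ'.gal.to_normal
    ⟨⟩
  unr := Λ.unr.sup Λ'.unr

theorem Lev.le_sup_left (Λ Λ' : Lev S) : Λ.F ≤ (Λ.sup Λ').F := _root_.le_sup_left

theorem Lev.le_sup_right (Λ Λ' : Lev S) : Λ'.F ≤ (Λ.sup Λ').F := _root_.le_sup_right

theorem Lev.unram (Λ : Lev S) : H17C.UnramOutside S Λ.F ⊤ := H9BL.unrTr S Λ.F Λ.unr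

/-! ### restriction of automorphisms -/

/-- restriction `GQ → Aut F` -/
def resL (Λ : Lev S) : GQ →* H17C.AutQ Λ.F := AlgEquiv.restrictNormalHom Λ.F

theorem resL_coe (Λ : Lev S) (g : GQ) (x : Λ.F) : ((resL Λ g x : Λ.F) : Qb) = g (x : Qb) :=
  AlgEquiv.restrictNormal_commutes g Λ.F x

theorem resL_surjective (Λ : Lev S) : Function.Surjective (resL Λ) :=
  haveI := H9BL.normal_Qb
  AlgEquiv.restrictNormalHom_surjective Qb

theorem resL_eq_one_iff (Λ : Lev S) (g : GQ) : resL Λ g = 1 ↔ g ∈ Λ.F.fixingSubgroup := by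
  rw [IntermediateField.mem_fixingSubgroup_iff]
  constructor
  · intro h x hx
    have := resL_coe Λ g ⟨x, hx⟩
    rw [h] at this
    exact this.symm
  · intro h
    ext x
    rw [resL_coe]
    exact h x x.2

/-! ### base change in a tower -/

section tower

variable (Λ Λ₁ : Lev S) (h : Λ.F ≤ Λ₁.F)

/-- the algebra structure of an inclusion -/
@[reducible] def incAlg : Algebra Λ.F Λ₁.F := (IntermediateField.inclusion h).toRingHom.toAlgebra

theorem incAlg_coe (x : Λ.F) :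
    (((incAlg Λ Λ₁ h).algebraMap x : Λ₁.F) : Qb) = (x : Qb) := rfl

/-- base change of ideles -/
def baseKS : H17C.KS S Λ.F →ₐ[ℚ] H17C.KS S Λ₁.F :=
  letI := incAlg Λ Λ₁ h
  H17C.ksBase S Λ.F Λ₁.F

/-- base change of ideles -/
def baseIdele : (H17C.KS S Λ.F)ˣ →* (H17C.KS S Λ₁.F)ˣ :=
  letI := incAlg Λ Λ₁ h
  H17C.ideleBase S Λ.F Λ₁.F

/-- base change `A_F → A_{F₁}` -/
def baseAmb : H17C.AmbS S Λ.F →+ H17C.AmbS S Λ₁.F :=
  letI := incAlg Λ Λ₁ h
  H17C.ambBase S Λ.F Λ₁.F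

/-- base change of divisors -/
def baseDiv : H17C.DivS S Λ.F →+ H17C.DivS S Λ₁.F :=
  letI := incAlg Λ Λ₁ h
  H17SI.pullDiv S Λ.F Λ₁.F

theorem baseAmb_apply (z : H17C.AmbS S Λ.F) :
    baseAmb Λ Λ₁ h z = (Additive.ofMul (baseIdele Λ Λ₁ h (Additive.toMul z.1)),
      baseDiv Λ Λ₁ h z.2) := rfl

theorem baseIdele_coe (x : (H17C.KS S Λ.F)ˣ) :
    ((baseIdele Λ Λ₁ h x : (H17C.KS S Λ₁.F)ˣ) : H17C.KS S Λ₁.F) = baseKS Λ Λ₁ h x := rfl

theorem baseKS_tmul (x : Λ.F) (y : H17C.QS S) :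
    baseKS Λ Λ₁ h (H17C.tmulS S Λ.F x y) =
      H17C.tmulS S Λ₁.F (IntermediateField.inclusion h x) y := rfl

/-- (t5) `T` is compatible with base change -/
theorem tF_base (z : H17C.KS S Λ.F) (q : S) (g : GQ) :
    tF S Λ₁.F (baseKS Λ Λ₁ h z) q g = tF S Λ.F z q g := by
  induction z using H17C.ks_induction with
  | zero => rw [map_zero, tF_zero, tF_zero]
  | tmul x y =>
    rw [baseKS_tmul, tF_tmul, tF_tmul]
    rfl
  | add a b ha hb => rw [map_add, tF_add, tF_add, ha, hb]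

theorem tI_base (x : (H17C.KS S Λ.F)ˣ) : tI Λ₁ (baseIdele Λ Λ₁ h x) = tI Λ x := by
  apply ideles_ext
  intro q g
  rw [tI_fn, tI_fn, baseIdele_coe]
  exact tF_base Λ Λ₁ h _ q g

/-- base change of a principal element -/
theorem baseAmb_princ (hS : S.Nonempty) (a : (↥Λ.F)ˣ) :
    baseAmb Λ Λ₁ h (H17C.princHom S Λ.F (Additive.ofMul a)) =
      H17C.princHom S Λ₁.F (Additive.ofMul
        (Units.map ((IntermediateField.inclusion h : Λ.F →+* Λ₁.F) : Λ.F →* Λ₁.F) a)) :=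
  letI := incAlg Λ Λ₁ h
  (h22bc_towerDesc S Λ.F Λ₁.F hS Λ₁.unram).1 a

theorem baseAmb_mem_princ (hS : S.Nonempty) (z : H17C.AmbS S Λ.F)
    (hz : z ∈ H17C.princS S Λ.F) : baseAmb Λ Λ₁ h z ∈ H17C.princS S Λ₁.F := by
  obtain ⟨a, rfl⟩ := (H17C.mem_princS_iff S _ z).1 hz
  exact (H17C.mem_princS_iff S _ _).2 ⟨_, (baseAmb_princ Λ Λ₁ h hS (Additive.toMul a)).symm⟩

/-- base change is injective on classes -/
theorem baseAmb_inj (hS : S.Nonempty) (z : H17C.AmbS S Λ.F)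
    (hz : baseAmb Λ Λ₁ h z ∈ H17C.princS S Λ₁.F) : z ∈ H17C.princS S Λ.F :=
  letI := incAlg Λ Λ₁ h
  (h22bc_towerDesc S Λ.F Λ₁.F hS Λ₁.unram).2.1 z hz

/-- invariant classes descend -/
theorem baseAmb_desc (hS : S.Nonempty) (z : H17C.AmbS S Λ₁.F)
    (hz : ∀ σ : H17C.AutQ Λ₁.F, (∀ x : Λ.F, σ (IntermediateField.inclusion h x) =
        IntermediateField.inclusion h x) →
      H17C.clsRep S ℚ Λ₁.F σ (H17C.clsMk S Λ₁.F z) = H17C.clsMk S Λ₁.F z) :
    ∃ w : H17C.AmbS S Λ.F,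
      H17C.clsMk S Λ₁.F (baseAmb Λ Λ₁ h w) = H17C.clsMk S Λ₁.F z :=
  letI := incAlg Λ Λ₁ h
  (h22bc_towerDesc S Λ.F Λ₁.F hS Λ₁.unram).2.2 z hz

/-- base change is equivariant -/
theorem baseAmb_eqv (g : GQ) (z : H17C.AmbS S Λ.F) :
    baseAmb Λ Λ₁ h (H17C.ambRep S ℚ Λ.F (resL Λ g) z) =
      H17C.ambRep S ℚ Λ₁.F (resL Λ₁ g) (baseAmb Λ Λ₁ h z) :=
  letI := incAlg Λ Λ₁ h
  h22bc_towerEqv S Λ.F Λ₁.F (resL Λ₁ g) (resL Λ g) (fun x => by
    apply Subtype.ext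
    show ((IntermediateField.inclusion h (resL Λ g x) : Λ₁.F) : Qb) =
      ((resL Λ₁ g (IntermediateField.inclusion h x) : Λ₁.F) : Qb)
    rw [resL_coe]
    show ((resL Λ g x : Λ.F) : Qb) = g (x : Qb)
    rw [resL_coe]) z

end tower

/-- base change is functorial -/
theorem baseAmb_comp (Λ Λ₁ Λ₂ : Lev S) (h : Λ.F ≤ Λ₁.F) (h' : Λ₁.F ≤ Λ₂.F)
    (z : H17C.AmbS S Λ.F) :
    baseAmb Λ₁ Λ₂ h' (baseAmb Λ Λ₁ h z) = baseAmb Λ Λ₂ (h.trans h') z :=
  letI := incAlg Λ Λ₁ h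
  letI := incAlg Λ₁ Λ₂ h'
  letI := incAlg Λ Λ₂ (h.trans h')
  haveI : IsScalarTower Λ.F Λ₁.F Λ₂.F := IsScalarTower.of_algebraMap_eq (fun x => rfl)
  h22bc_towerFun S Λ.F Λ₁.F Λ₂.F z

theorem baseKS_refl (Λ : Lev S) (u : H17C.KS S Λ.F) : baseKS Λ Λ le_rfl u = u := by
  induction u using H17C.ks_induction with
  | zero => rw [map_zero]
  | tmul x y => rfl
  | add a b ha hb => rw [map_add, ha, hb]

theorem baseDiv_refl (Λ : Lev S) (d : H17C.DivS S Λ.F) : baseDiv Λ Λ le_rfl d = d := by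
  ext Q
  show d _ = d Q
  congr 1

theorem baseAmb_refl (Λ : Lev S) (z : H17C.AmbS S Λ.F) : baseAmb Λ Λ le_rfl z = z := by
  refine Prod.ext ?_ (baseDiv_refl Λ z.2)
  apply congrArg Additive.ofMul
  apply Units.ext
  exact baseKS_refl Λ _

end H22BC

end
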