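/-
W2-C (S55) block C transport, B-CLS assembly part 3 (helper22): the relation `Rel Λ b w`
("the class of `w ∈ A_F` corresponds to `b ∈ B = I/E`") and its basic properties; the exact Prop
`CapRelStatement` of the cokernel step.
-/
import Fermat.Agent.CFT2.C.BCls.TI2_helper22

set_option autoImplicit false
set_option linter.unusedSectionVars false
set_option linter.unusedVariables false
set_option linter.style.haveILetI false

noncomputable section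

namespace H22BC

open NumberField H14PT H15D

local notation "Qb" => AlgebraicClosure ℚ
local notation "GQ" => (AlgebraicClosure ℚ ≃ₐ[ℚ] AlgebraicClosure ℚ)

/-- primes are prime. -/
local instance factPrimeRel1 (q : Nat.Primes) : Fact (q : ℕ).Prime := ⟨q.2⟩

variable {S : Finset Nat.Primes}

theorem cls_eq_iff (K : Type) [Field K] [NumberField K] (z z' : H17C.AmbS S K) :
    H17C.clsMk S K z = H17C.clsMk S K z' ↔ z - z' ∈ H17C.princS S K :=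
  Submodule.Quotient.eq _

/-- the class of `b ∈ B` in `B = I/E` of an idele -/
def mkB (f : ideles S) : Additive (ideles S) ⧸ imE S := projBL S (Additive.ofMul f)

theorem mkB_mul (f f' : ideles S) : mkB (f * f') = mkB f + mkB f' := rfl

theorem mkB_eq_zero_iff (f : ideles S) : mkB f = 0 ↔ ∃ u : sUnits S, diag S u = f := by
  unfold mkB
  rw [← LinearMap.mem_ker, projBL_ker]
  constructor
  · rintro ⟨u, hu⟩
    exact ⟨Additive.toMul u, congrArg Additive.toMul hu⟩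
  · rintro ⟨u, hu⟩
    exact ⟨Additive.ofMul u, congrArg Additive.ofMul hu⟩

theorem mkB_eq_iff (f f' : ideles S) : mkB f = mkB f' ↔ ∃ u : sUnits S, f = f' * diag S u := by
  have h1 : mkB f = mkB f' ↔ mkB (f * f'⁻¹) = 0 := by
    have : mkB (f * f'⁻¹) = mkB f - mkB f' := rfl
    rw [this, sub_eq_zero]
  rw [h1, mkB_eq_zero_iff]
  constructor
  · rintro ⟨u, hu⟩
    exact ⟨u, by rw [hu]; simp⟩
  · rintro ⟨u, hu⟩
    exact ⟨u, by rw [hu]; simp⟩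

theorem ρB_mkB (g : GQ) (f : ideles S) : ρB S g (mkB f) = mkB (g • f) := rfl

/-- **the relation**: `b = [t_{F₁} x]` and `[(x, 0)] = [base w]` in `C_{F₁}` for some Galois
`S`-level `F₁ ⊇ F` -/
def Rel (Λ : Lev S) (b : Additive (ideles S) ⧸ imE S) (w : H17C.AmbS S Λ.F) : Prop :=
  ∃ (Λ₁ : Lev S) (h : Λ.F ≤ Λ₁.F) (x : (H17C.KS S Λ₁.F)ˣ),
    mkB (tI Λ₁ x) = b ∧
    H17C.clsMk S Λ₁.F (Additive.ofMul x, 0) = H17C.clsMk S Λ₁.F (baseAmb Λ Λ₁ h w)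

theorem baseAmb_idele (Λ Λ₁ : Lev S) (h : Λ.F ≤ Λ₁.F) (x : (H17C.KS S Λ.F)ˣ) :
    baseAmb Λ Λ₁ h (Additive.ofMul x, 0) = (Additive.ofMul (baseIdele Λ Λ₁ h x), 0) := by
  rw [baseAmb_apply]
  refine Prod.ext rfl ?_
  exact map_zero _

/-- a witness of `Rel` can be moved to any larger level -/
theorem rel_mono (hS : S.Nonempty) {Λ Λ₁ : Lev S} (h : Λ.F ≤ Λ₁.F) (w : H17C.AmbS S Λ.F)
    (x : (H17C.KS S Λ₁.F)ˣ)
    (hc : H17C.clsMk S Λ₁.F (Additive.ofMul x, 0) = H17C.clsMk S Λ₁.F (baseAmb Λ Λ₁ h w))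
    (Λ₂ : Lev S) (h12 : Λ₁.F ≤ Λ₂.F) :
    mkB (tI Λ₂ (baseIdele Λ₁ Λ₂ h12 x)) = mkB (tI Λ₁ x) ∧
    H17C.clsMk S Λ₂.F (Additive.ofMul (baseIdele Λ₁ Λ₂ h12 x), 0) =
      H17C.clsMk S Λ₂.F (baseAmb Λ Λ₂ (h.trans h12) w) := by
  refine ⟨by rw [tI_base], ?_⟩
  rw [cls_eq_iff] at hc ⊢
  have h1 := baseAmb_mem_princ Λ₁ Λ₂ h12 hS _ hc
  rw [map_sub, baseAmb_comp, baseAmb_idele] at h1
  exact h1

/-- `Rel` only depends on the class of `w` -/
theorem rel_congr (hS : S.Nonempty) {Λ : Lev S} {b : Additive (ideles S) ⧸ imE S}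
    {w w' : H17C.AmbS S Λ.F} (hr : Rel Λ b w) (hw : w' - w ∈ H17C.princS S Λ.F) :
    Rel Λ b w' := by
  obtain ⟨Λ₁, h, x, hb, hc⟩ := hr
  refine ⟨Λ₁, h, x, hb, ?_⟩
  rw [hc, eq_comm, cls_eq_iff, ← map_sub]
  exact baseAmb_mem_princ Λ Λ₁ h hS _ hw

/-- two witnesses can be moved to a common level -/
theorem rel_common (hS : S.Nonempty) {Λ : Lev S} {b b' : Additive (ideles S) ⧸ imE S}
    {w w' : H17C.AmbS S Λ.F} (hr : Rel Λ b w) (hr' : Rel Λ b' w') :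
    ∃ (Λ₂ : Lev S) (h : Λ.F ≤ Λ₂.F) (x x' : (H17C.KS S Λ₂.F)ˣ),
      mkB (tI Λ₂ x) = b ∧ mkB (tI Λ₂ x') = b' ∧
      H17C.clsMk S Λ₂.F (Additive.ofMul x, 0) = H17C.clsMk S Λ₂.F (baseAmb Λ Λ₂ h w) ∧
      H17C.clsMk S Λ₂.F (Additive.ofMul x', 0) = H17C.clsMk S Λ₂.F (baseAmb Λ Λ₂ h w') := by
  obtain ⟨Λ₁, h, x, hb, hc⟩ := hr
  obtain ⟨Λ₁', h', x', hb', hc'⟩ := hr'
  obtain ⟨e1, e2⟩ := rel_mono hS h w x hc (Λ₁.sup Λ₁') (Λ₁.le_sup_left Λ₁')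
  obtain ⟨e1', e2'⟩ := rel_mono hS h' w' x' hc' (Λ₁.sup Λ₁') (Λ₁.le_sup_right Λ₁')
  exact ⟨Λ₁.sup Λ₁', h.trans (Λ₁.le_sup_left Λ₁'), _, _, e1.trans hb, e1'.trans hb', e2, e2'⟩

/-- **(CAP-REL)**, the cokernel step: if `p • w` corresponds to an invariant `b`, then `w`
corresponds to an invariant `b'`.  (From CAP: `div a = -p • base d` in `F₁` gives `a = w₀^p` in a
larger level `F₂`, `div w₀ = - base d`; `x' := base(y) · diag(w₀)`.) -/
def CapRelStatement (S : Finset Nat.Primes) (p : ℕ) : Prop :=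
  p.Prime → (∃ q ∈ S, (q : ℕ) = p) →
  ∀ (Λ : Lev S) (w : H17C.AmbS S Λ.F) (b : Additive (ideles S) ⧸ imE S),
    Rel Λ b (p • w) →
    ∃ b' : Additive (ideles S) ⧸ imE S, (∀ s ∈ Λ.F.fixingSubgroup, ρB S s b' = b') ∧ Rel Λ b' w

end H22BC

end
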