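/-
W2-C (S55) block C transport, B-CLS assembly part 4 (helper22): the properties of `Rel`:
zero, additivity, uniqueness, injectivity, equivariance, existence.
Inputs: T-INJ, T-SURJ (helper26), S-UNITS (helper25), LEVEL-FIELD (helper9), TOWER (helper22).
-/
import Fermat.Agent.CFT2.C.BCls.Rel1_helper22

set_option autoImplicit false
set_option linter.unusedSectionVars false
set_option linter.unusedVariables false
set_option linter.style.haveILetI false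

noncomputable section

namespace H22BC

open NumberField H14PT H15D

local notation "Qb" => AlgebraicClosure ℚ
local notation "GQ" => (AlgebraicClosure ℚ ≃ₐ[ℚ] AlgebraicClosure ℚ)

/-- primes are prime. -/
local instance factPrimeRel2 (q : Nat.Primes) : Fact (q : ℕ).Prime := ⟨q.2⟩

variable {S : Finset Nat.Primes}

/-- the unit of `Qb` of a unit of `F` -/
def toQb (Λ : Lev S) : (↥Λ.F)ˣ →* Qbˣ := Units.map ((algebraMap Λ.F Qb : Λ.F →+* Qb) : Λ.F →* Qb)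

theorem toQb_coe (Λ : Lev S) (a : (↥Λ.F)ˣ) : ((toQb Λ a : Qbˣ) : Qb) = ((a : Λ.F) : Qb) := rfl

/-- the values of `t` are invariant under `Gal(Qb/F)` -/
theorem tI_invariant (Λ : Lev S) (x : (H17C.KS S Λ.F)ˣ) (s : GQ) (hs : s ∈ Λ.F.fixingSubgroup) :
    s • tI Λ x = tI Λ x := by
  have h := tI_smul Λ 1 s (fun y => by
    rw [(IntermediateField.mem_fixingSubgroup_iff Λ.F s).1 hs _ y.2]
    rfl) x
  rw [one_smul] at h
  exact h.symm

section inputs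

variable (hS : S.Nonempty) (hinj : TensorInjStatement S) (hsu : SUnitsStatement S)
  (hlf : LevelFieldStatement S)

include hS hinj hsu hlf

/-- an `S`-unit whose diagonal idele is `Gal(Qb/F₁)`-invariant lies in `F₁` -/
theorem sUnit_descends (Λ₁ : Lev S) (ε : sUnits S)
    (hε : ∀ s ∈ Λ₁.F.fixingSubgroup, s • diag S ε = diag S ε) :
    ∃ a : (↥Λ₁.F)ˣ, toQb Λ₁ a = (ε : Qbˣ) ∧ H17C.divS S Λ₁.F (Additive.ofMul a) = 0 ∧
      tI Λ₁ (H17C.diagS S Λ₁.F a) = diag S ε := by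
  have h1 : ∀ s ∈ Λ₁.F.fixingSubgroup, s (((ε : Qbˣ) : Qb)) = ((ε : Qbˣ) : Qb) := by
    intro s hs
    have h2 := hε s hs
    rw [← diag_smul] at h2
    have h3 : diagL S (Additive.ofMul (s • ε)) = diagL S (Additive.ofMul ε) :=
      congrArg Additive.ofMul h2
    have h4 := diagL_injective S hS h3
    have h5 : s • ε = ε := congrArg Additive.toMul h4
    have h6 := congrArg (fun u : sUnits S => ((u : Qbˣ) : Qb)) h5
    exact h6
  have hmem : ((ε : Qbˣ) : Qb) ∈ Λ₁.F := hlf.2.1 Λ₁.F _ h1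
  have hne : (⟨((ε : Qbˣ) : Qb), hmem⟩ : Λ₁.F) ≠ 0 := by
    intro h0
    exact (ε : Qbˣ).ne_zero (congrArg Subtype.val h0)
  let a : (↥Λ₁.F)ˣ := Units.mk0 ⟨((ε : Qbˣ) : Qb), hmem⟩ hne
  have ha : toQb Λ₁ a = (ε : Qbˣ) := Units.ext rfl
  have ha' : Units.map ((algebraMap Λ₁.F Qb : Λ₁.F →+* Qb) : Λ₁.F →* Qb) a ∈ sUnits S := by
    have : Units.map ((algebraMap Λ₁.F Qb : Λ₁.F →+* Qb) : Λ₁.F →* Qb) a = (ε : Qbˣ) := ha
    rw [this]
    exact ε.2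
  refine ⟨a, ha, (hsu Λ₁.F Λ₁.unr a).1 ha', ?_⟩
  rw [tI_diag Λ₁ a ha']
  congr 1
  exact Subtype.ext ha

theorem rel_zero (Λ : Lev S) : Rel Λ 0 (0 : H17C.AmbS S Λ.F) := by
  refine ⟨Λ, le_rfl, 1, ?_, ?_⟩
  · rw [map_one]
    rfl
  · rw [map_zero]
    rfl

theorem rel_add {Λ : Lev S} {b b' : Additive (ideles S) ⧸ imE S} {w w' : H17C.AmbS S Λ.F}
    (hr : Rel Λ b w) (hr' : Rel Λ b' w') : Rel Λ (b + b') (w + w') := by
  obtain ⟨Λ₂, h, x, x', hb, hb', hc, hc'⟩ := rel_common hS hr hr'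
  refine ⟨Λ₂, h, x * x', ?_, ?_⟩
  · rw [map_mul, mkB_mul, hb, hb']
  · have e : ((Additive.ofMul (x * x'), 0) : H17C.AmbS S Λ₂.F) =
        (Additive.ofMul x, 0) + (Additive.ofMul x', 0) := by
      refine Prod.ext rfl ?_
      show (0 : H17C.DivS S Λ₂.F) = 0 + 0
      rw [add_zero]
    rw [e, map_add, map_add, map_add, hc, hc']

theorem rel_unique {Λ : Lev S} {b : Additive (ideles S) ⧸ imE S} {w w' : H17C.AmbS S Λ.F}
    (hr : Rel Λ b w) (hr' : Rel Λ b w') : w - w' ∈ H17C.princS S Λ.F := by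
  obtain ⟨Λ₂, h, x, x', hb, hb', hc, hc'⟩ := rel_common hS hr hr'
  obtain ⟨ε, hε⟩ := (mkB_eq_iff _ _).1 (hb.trans hb'.symm)
  have hinv : ∀ s ∈ Λ₂.F.fixingSubgroup, s • diag S ε = diag S ε := by
    intro s hs
    have e : diag S ε = tI Λ₂ (x * x'⁻¹) := by
      rw [map_mul, map_inv, hε]
      simp
    rw [e]
    exact tI_invariant Λ₂ _ s hs
  obtain ⟨a, -, hdiv, hta⟩ := sUnit_descends hS hinj hsu hlf Λ₂ ε hinv
  have hx : x = x' * H17C.diagS S Λ₂.F a := by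
    apply tI_injective Λ₂ hinj
    rw [map_mul, hta, hε]
  have hcls : H17C.clsMk S Λ₂.F (Additive.ofMul x, 0) =
      H17C.clsMk S Λ₂.F (Additive.ofMul x', 0) := by
    rw [cls_eq_iff]
    refine (H17C.mem_princS_iff S _ _).2 ⟨Additive.ofMul a, ?_⟩
    refine Prod.ext ?_ ?_
    · show Additive.ofMul (H17C.diagS S Λ₂.F a) = Additive.ofMul x - Additive.ofMul x'
      rw [hx]
      show _ = Additive.ofMul (x' * H17C.diagS S Λ₂.F a * x'⁻¹)
      congr 1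
      rw [mul_comm x', mul_assoc, mul_inv_cancel, mul_one]
    · show H17C.divS S Λ₂.F (Additive.ofMul a) = (0 : H17C.DivS S Λ₂.F) - 0
      rw [hdiv, sub_zero]
  have h2 : H17C.clsMk S Λ₂.F (baseAmb Λ Λ₂ h w) = H17C.clsMk S Λ₂.F (baseAmb Λ Λ₂ h w') := by
    rw [← hc, ← hc', hcls]
  rw [cls_eq_iff, ← map_sub] at h2
  exact baseAmb_inj Λ Λ₂ h hS _ h2

theorem rel_inj {Λ : Lev S} {b : Additive (ideles S) ⧸ imE S} {w : H17C.AmbS S Λ.F}
    (hr : Rel Λ b w) (hw : w ∈ H17C.princS S Λ.F) : b = 0 := by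
  obtain ⟨Λ₁, h, x, hb, hc⟩ := hr
  have h1 : H17C.clsMk S Λ₁.F (baseAmb Λ Λ₁ h w) = 0 :=
    (H17C.clsMk_eq_zero_iff S _ _).2 (baseAmb_mem_princ Λ Λ₁ h hS w hw)
  rw [h1, H17C.clsMk_eq_zero_iff, H17C.mem_princS_iff] at hc
  obtain ⟨a, ha⟩ := hc
  have ha1 : H17C.diagS S Λ₁.F (Additive.toMul a) = x :=
    congrArg Additive.toMul (congrArg Prod.fst ha)
  have ha2 : H17C.divS S Λ₁.F (Additive.ofMul (Additive.toMul a)) = 0 := congrArg Prod.snd ha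
  have ha3 := (hsu Λ₁.F Λ₁.unr (Additive.toMul a)).2 ha2
  rw [← hb, ← ha1, tI_diag Λ₁ _ ha3, mkB_eq_zero_iff]
  exact ⟨_, rfl⟩

theorem rel_eqv {Λ : Lev S} {b : Additive (ideles S) ⧸ imE S} {w : H17C.AmbS S Λ.F}
    (hr : Rel Λ b w) (g : GQ) : Rel Λ (ρB S g b) (H17C.ambRep S ℚ Λ.F (resL Λ g) w) := by
  obtain ⟨Λ₁, h, x, hb, hc⟩ := hr
  refine ⟨Λ₁, h, resL Λ₁ g • x, ?_, ?_⟩
  · rw [tI_smul Λ₁ (resL Λ₁ g) g (fun y => (resL_coe Λ₁ g y).symm) x, ← hb, ρB_mkB]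
  · rw [baseAmb_eqv]
    have e : ((Additive.ofMul (resL Λ₁ g • x), 0) : H17C.AmbS S Λ₁.F) =
        H17C.ambRep S ℚ Λ₁.F (resL Λ₁ g) (Additive.ofMul x, 0) := by
      rw [H17C.ambRep_apply]
      refine Prod.ext rfl ?_
      show (0 : H17C.DivS S Λ₁.F) = H17C.divRep S ℚ Λ₁.F (resL Λ₁ g) 0
      rw [map_zero]
    rw [e, ← H17C.clsRep_mk, ← H17C.clsRep_mk, hc]

end inputs

end H22BC

end
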