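/-
W2-C (S55) block C transport, B-CLS assembly part 5 (helper22): existence for `Rel`:
every `Gal(Qb/F)`-invariant element of `B = I/E` corresponds to a class of `C_F`.
-/
import Fermat.Agent.CFT2.C.BCls.Rel2_helper22

set_option autoImplicit false
set_option linter.unusedSectionVars false
set_option linter.unusedVariables false
set_option linter.style.haveILetI false

noncomputable section

namespace H22BC

open NumberField H14PT H15D

local notation "Qb" => AlgebraicClosure ℚ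
local notation "GQ" => (AlgebraicClosure ℚ ≃ₐ[ℚ] AlgebraicClosure ℚ)

/-- primes are prime. -/
local instance factPrimeRel3 (q : Nat.Primes) : Fact (q : ℕ).Prime := ⟨q.2⟩

variable {S : Finset Nat.Primes}

/-- every idele is invariant under `Gal(Qb/F')` for some Galois `S`-level `F'` -/
theorem exists_lev_fix (hlf : LevelFieldStatement S) (f : ideles S) :
    ∃ Λ' : Lev S, ∀ s ∈ Λ'.F.fixingSubgroup, s • f = f := by
  obtain ⟨U, hU, hUf⟩ := isSmooth_I S (Additive.ofMul f)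
  obtain ⟨F', hfd, hgal, hunr, hUF, -⟩ := hlf.1 ⟨U, hU⟩
  refine ⟨⟨F', hfd, hgal, hunr⟩, fun s hs => ?_⟩
  have hs' : s ∈ U := by
    have : U = F'.fixingSubgroup := hUF
    rw [this]
    exact hs
  exact congrArg Additive.toMul (hUf s hs')

section inputs

variable (hS : S.Nonempty) (hinj : TensorInjStatement S) (hsurj : TensorSurjStatement S)
  (hsu : SUnitsStatement S) (hlf : LevelFieldStatement S)

include hS hinj hsurj hsu hlf

theorem rel_exist (Λ : Lev S) (b : Additive (ideles S) ⧸ imE S)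
    (hb : ∀ s ∈ Λ.F.fixingSubgroup, ρB S s b = b) : ∃ w : H17C.AmbS S Λ.F, Rel Λ b w := by
  obtain ⟨f0, rfl⟩ := projBL_surjective S b
  obtain ⟨f, rfl⟩ : ∃ f : ideles S, Additive.ofMul f = f0 := ⟨Additive.toMul f0, rfl⟩
  change ∀ s ∈ Λ.F.fixingSubgroup, ρB S s (mkB f) = mkB f at hb
  obtain ⟨Λ', hΛ'⟩ := exists_lev_fix hlf f
  have h : Λ.F ≤ (Λ.sup Λ').F := Λ.le_sup_left Λ'
  have hf1 : ∀ s ∈ (Λ.sup Λ').F.fixingSubgroup, s • f = f := fun s hs =>
    hΛ' s (IntermediateField.fixingSubgroup_antitone (Λ.le_sup_right Λ') hs)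
  obtain ⟨x, hx⟩ := tI_surjective (Λ.sup Λ') hinj hsurj f hf1
  have hz : ∀ σ : H17C.AutQ (Λ.sup Λ').F, (∀ y : Λ.F, σ (IntermediateField.inclusion h y) =
        IntermediateField.inclusion h y) →
      H17C.clsRep S ℚ (Λ.sup Λ').F σ (H17C.clsMk S (Λ.sup Λ').F (Additive.ofMul x, 0)) =
        H17C.clsMk S (Λ.sup Λ').F (Additive.ofMul x, 0) := by
    intro σ hσ
    obtain ⟨γ, rfl⟩ := resL_surjective (Λ.sup Λ') σ
    have hγ : γ ∈ Λ.F.fixingSubgroup := by
      rw [IntermediateField.mem_fixingSubgroup_iff]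
      intro y hy
      have h1 := congrArg (fun u : (Λ.sup Λ').F => (u : Qb)) (hσ ⟨y, hy⟩)
      simp only [resL_coe] at h1
      exact h1
    have h2 := hb γ hγ
    rw [ρB_mkB, mkB_eq_iff] at h2
    obtain ⟨ε, hε⟩ := h2
    have h3 : tI (Λ.sup Λ') (resL (Λ.sup Λ') γ • x) = γ • f := by
      rw [tI_smul (Λ.sup Λ') (resL (Λ.sup Λ') γ) γ (fun y => (resL_coe (Λ.sup Λ') γ y).symm) x, hx]
    have hinv : ∀ s ∈ (Λ.sup Λ').F.fixingSubgroup, s • diag S ε = diag S ε := by
      intro s hs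
      have e : diag S ε = tI (Λ.sup Λ') ((resL (Λ.sup Λ') γ • x) * x⁻¹) := by
        rw [map_mul, map_inv, h3, hx, hε]
        simp
      rw [e]
      exact tI_invariant (Λ.sup Λ') _ s hs
    obtain ⟨a, -, hdiv, hta⟩ := sUnit_descends hS hinj hsu hlf (Λ.sup Λ') ε hinv
    have hx' : resL (Λ.sup Λ') γ • x = x * H17C.diagS S (Λ.sup Λ').F a := by
      apply tI_injective (Λ.sup Λ') hinj
      rw [map_mul, hta, h3, hx, hε]
    rw [H17C.clsRep_mk, cls_eq_iff]
    refine (H17C.mem_princS_iff S _ _).2 ⟨Additive.ofMul a, ?_⟩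
    rw [H17C.ambRep_apply]
    refine Prod.ext ?_ ?_
    · show Additive.ofMul (H17C.diagS S (Λ.sup Λ').F a) =
        Additive.ofMul (resL (Λ.sup Λ') γ • x) - Additive.ofMul x
      rw [hx']
      show _ = Additive.ofMul (x * H17C.diagS S (Λ.sup Λ').F a * x⁻¹)
      congr 1
      rw [mul_comm x, mul_assoc, mul_inv_cancel, mul_one]
    · show H17C.divS S (Λ.sup Λ').F (Additive.ofMul a) =
        H17C.divRep S ℚ (Λ.sup Λ').F (resL (Λ.sup Λ') γ) 0 - 0
      rw [hdiv, map_zero, sub_zero]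
  obtain ⟨w, hw⟩ := baseAmb_desc Λ (Λ.sup Λ') h hS _ hz
  exact ⟨w, Λ.sup Λ', h, x, by rw [hx]; rfl, hw.symm⟩

end inputs

end H22BC

end
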