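/-
W2-C (S55) block C transport, B-CLS assembly part 6 (helper22): the map `j : B_L → C_F` and
`H17C.BClsStatement S p` from the sub-slices (conditional form `h22bc_bcls_of`).
-/
import Fermat.Agent.CFT2.C.BCls.Rel3_helper22
import Fermat.Agent.CFT2.C.UnitIndexFinite_helper12

set_option autoImplicit false
set_option linter.unusedSectionVars false
set_option linter.unusedVariables false
set_option linter.style.haveILetI false

noncomputable section

namespace H22BC

open NumberField H14PT H15D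

local notation "Qb" => AlgebraicClosure ℚ
local notation "GQ" => (AlgebraicClosure ℚ ≃ₐ[ℚ] AlgebraicClosure ℚ)

/-- primes are prime. -/
local instance factPrimeAsm (q : Nat.Primes) : Fact (q : ℕ).Prime := ⟨q.2⟩

variable {S : Finset Nat.Primes}

section inputs

variable (hS : S.Nonempty) (hinj : TensorInjStatement S) (hsurj : TensorSurjStatement S)
  (hsu : SUnitsStatement S) (hlf : LevelFieldStatement S)
  (L : (levelsS S).Lv) (Λ : Lev S) (hU : L.U = Λ.F.fixingSubgroup)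

/-- the underlying element of `B` -/
def bval (b : (BL S L).V) : Additive (ideles S) ⧸ imE S := b.1

theorem bval_injective : Function.Injective (bval (S := S) L) := fun b b' h => Subtype.ext h

theorem bval_add (b b' : (BL S L).V) : bval L (b + b') = bval L b + bval L b' := rfl

theorem bval_zero : bval L (0 : (BL S L).V) = 0 := rfl

theorem bval_ρ (g : GQ) (b : (BL S L).V) :
    bval L ((BL S L).ρ (g : GQ ⧸ L.U) b) = ρB S g (bval L b) := rfl

include hU in
theorem bval_inv (b : (BL S L).V) (s : GQ) (hs : s ∈ Λ.F.fixingSubgroup) :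
    ρB S s (bval L b) = bval L b := by
  have hs' : s ∈ L.U := by rw [hU]; exact hs
  exact b.2 ⟨s, hs'⟩

include hU in
/-- an invariant element of `B` as an element of `B_L` -/
theorem exists_bval (b : Additive (ideles S) ⧸ imE S)
    (hb : ∀ s ∈ Λ.F.fixingSubgroup, ρB S s b = b) : ∃ b' : (BL S L).V, bval L b' = b := by
  refine ⟨⟨b, fun u => ?_⟩, rfl⟩
  have hu : (u : GQ) ∈ Λ.F.fixingSubgroup := by rw [← hU]; exact u.2
  exact hb _ hu

include hS hinj hsurj hsu hlf hU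

/-- the map `j` as a function -/
def jFun (b : (BL S L).V) : H17C.ClS S Λ.F :=
  H17C.clsMk S Λ.F (Classical.choose
    (rel_exist hS hinj hsurj hsu hlf Λ (bval L b) (bval_inv L Λ hU b)))

theorem jFun_rel (b : (BL S L).V) : ∃ w : H17C.AmbS S Λ.F,
    Rel Λ (bval L b) w ∧ jFun hS hinj hsurj hsu hlf L Λ hU b = H17C.clsMk S Λ.F w :=
  ⟨_, Classical.choose_spec
    (rel_exist hS hinj hsurj hsu hlf Λ (bval L b) (bval_inv L Λ hU b)), rfl⟩

theorem jFun_eq (b : (BL S L).V) (w : H17C.AmbS S Λ.F) (hw : Rel Λ (bval L b) w) :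
    jFun hS hinj hsurj hsu hlf L Λ hU b = H17C.clsMk S Λ.F w := by
  obtain ⟨w', hw', e⟩ := jFun_rel hS hinj hsurj hsu hlf L Λ hU b
  rw [e, cls_eq_iff]
  exact rel_unique hS hinj hsu hlf hw' hw

/-- **the map `j : B_L → C_F`** -/
def jHom : (BL S L).V →+ H17C.ClS S Λ.F where
  toFun := jFun hS hinj hsurj hsu hlf L Λ hU
  map_zero' := by
    rw [jFun_eq hS hinj hsurj hsu hlf L Λ hU 0 0 (rel_zero hS hinj hsu hlf Λ), map_zero]
  map_add' b b' := by
    obtain ⟨w, hw, e⟩ := jFun_rel hS hinj hsurj hsu hlf L Λ hU b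
    obtain ⟨w', hw', e'⟩ := jFun_rel hS hinj hsurj hsu hlf L Λ hU b'
    rw [e, e', jFun_eq hS hinj hsurj hsu hlf L Λ hU (b + b') (w + w')
      (rel_add hS hinj hsu hlf hw hw'), map_add]

theorem jHom_eq (b : (BL S L).V) (w : H17C.AmbS S Λ.F) (hw : Rel Λ (bval L b) w) :
    jHom hS hinj hsurj hsu hlf L Λ hU b = H17C.clsMk S Λ.F w :=
  jFun_eq hS hinj hsurj hsu hlf L Λ hU b w hw

theorem jHom_injective : Function.Injective (jHom hS hinj hsurj hsu hlf L Λ hU) := by
  rw [injective_iff_map_eq_zero]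
  intro b hb
  obtain ⟨w, hw, e⟩ := jFun_rel hS hinj hsurj hsu hlf L Λ hU b
  have h1 : H17C.clsMk S Λ.F w = 0 := e.symm.trans hb
  rw [H17C.clsMk_eq_zero_iff] at h1
  apply bval_injective L
  rw [bval_zero]
  exact rel_inj hS hinj hsu hlf hw h1

theorem jHom_eqv (g : GQ) (b : (BL S L).V) :
    jHom hS hinj hsurj hsu hlf L Λ hU ((BL S L).ρ (g : GQ ⧸ L.U) b) =
      H17C.clsRep S ℚ Λ.F (resL Λ g) (jHom hS hinj hsurj hsu hlf L Λ hU b) := by
  obtain ⟨w, hw, e⟩ := jFun_rel hS hinj hsurj hsu hlf L Λ hU b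
  have e' : jHom hS hinj hsurj hsu hlf L Λ hU b = H17C.clsMk S Λ.F w := e
  rw [e', H17C.clsRep_mk]
  apply jHom_eq
  rw [bval_ρ]
  exact rel_eqv hS hinj hsu hlf hw g

/-- the classes of the ideles of `F` are in the image of `j` -/
theorem idele_mem_range (y : (H17C.KS S Λ.F)ˣ) :
    H17C.clsMk S Λ.F (Additive.ofMul y, 0) ∈ (jHom hS hinj hsurj hsu hlf L Λ hU).range := by
  obtain ⟨b, hb⟩ := exists_bval L Λ hU (mkB (tI Λ y)) (fun s hs => by
    rw [ρB_mkB, tI_invariant Λ y s hs])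
  refine ⟨b, ?_⟩
  apply jHom_eq
  rw [hb]
  exact ⟨Λ, le_rfl, y, rfl, by rw [baseAmb_refl]⟩

theorem range_index_ne_zero :
    (jHom hS hinj hsurj hsu hlf L Λ hU).range.index ≠ 0 := by
  have h1 := (H12FIN.h12c_unitIndexFinite S Λ.F).1
  have hle : (H17C.unitIdeleAdd S Λ.F).map ((H17C.clsMk S Λ.F).toAddMonoidHom.comp
      (AddMonoidHom.inl (Additive (H17C.KS S Λ.F)ˣ) (H17C.DivS S Λ.F))) ≤
      (jHom hS hinj hsurj hsu hlf L Λ hU).range := by
    rintro _ ⟨u, -, rfl⟩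
    exact idele_mem_range hS hinj hsurj hsu hlf L Λ hU (Additive.toMul u)
  intro h0
  apply h1
  have := AddSubgroup.index_dvd_of_le hle
  rw [h0] at this
  exact Nat.eq_zero_of_zero_dvd this

theorem range_index_not_dvd (p : ℕ) (hp : p.Prime) (hcr : ∀ (w : H17C.AmbS S Λ.F)
      (b : Additive (ideles S) ⧸ imE S), Rel Λ b (p • w) →
      ∃ b' : Additive (ideles S) ⧸ imE S,
        (∀ s ∈ Λ.F.fixingSubgroup, ρB S s b' = b') ∧ Rel Λ b' w) :
    ¬ p ∣ (jHom hS hinj hsurj hsu hlf L Λ hU).range.index := by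
  classical
  intro hdvd
  have hne := range_index_ne_zero hS hinj hsurj hsu hlf L Λ hU
  set R := (jHom hS hinj hsurj hsu hlf L Λ hU).range with hR
  haveI : Finite (H17C.ClS S Λ.F ⧸ R) := by
    have : R.FiniteIndex := ⟨hne⟩
    exact AddSubgroup.finite_quotient_of_finiteIndex
  haveI : Fintype (H17C.ClS S Λ.F ⧸ R) := Fintype.ofFinite _
  haveI : Fact p.Prime := ⟨hp⟩
  have hcard : p ∣ Fintype.card (H17C.ClS S Λ.F ⧸ R) := by
    rw [← Nat.card_eq_fintype_card]
    exact hdvd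
  obtain ⟨c, hc⟩ := exists_prime_addOrderOf_dvd_card p hcard
  obtain ⟨c0, rfl⟩ := QuotientAddGroup.mk_surjective c
  obtain ⟨w, rfl⟩ := H17C.clsMk_surjective S Λ.F c0
  have h1 : p • (QuotientAddGroup.mk (H17C.clsMk S Λ.F w) : H17C.ClS S Λ.F ⧸ R) = 0 := by
    rw [← hc]
    exact addOrderOf_nsmul_eq_zero _
  have h2 : p • H17C.clsMk S Λ.F w ∈ R := (QuotientAddGroup.eq_zero_iff _).1 h1
  obtain ⟨b, hb⟩ := h2
  obtain ⟨w', hw', e⟩ := jFun_rel hS hinj hsurj hsu hlf L Λ hU b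
  have e2 : H17C.clsMk S Λ.F w' = H17C.clsMk S Λ.F (p • w) := by
    rw [map_nsmul]
    exact e.symm.trans hb
  have h3 : Rel Λ (bval L b) (p • w) := by
    apply rel_congr hS hw'
    rw [eq_comm, cls_eq_iff] at e2
    exact e2
  obtain ⟨b', hb'inv, hb'⟩ := hcr w _ h3
  obtain ⟨b'', hb''⟩ := exists_bval L Λ hU b' hb'inv
  have h4 : H17C.clsMk S Λ.F w ∈ R := by
    refine ⟨b'', ?_⟩
    apply jHom_eq
    rw [hb'']
    exact hb'
  have h5 : (QuotientAddGroup.mk (H17C.clsMk S Λ.F w) : H17C.ClS S Λ.F ⧸ R) = 0 :=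
    (QuotientAddGroup.eq_zero_iff _).2 h4
  rw [h5, addOrderOf_zero] at hc
  exact hp.one_lt.ne hc

end inputs

/-- **(B-CLS)**, from the sub-slices -/
theorem h22bc_bcls_of (S : Finset Nat.Primes) (p : ℕ) (hp : p.Prime)
    (hpS : ∃ q ∈ S, ((q : Nat.Primes) : ℕ) = p)
    (hinj : TensorInjStatement S) (hsurj : TensorSurjStatement S)
    (hsu : SUnitsStatement S) (hlf : LevelFieldStatement S) (hcr : CapRelStatement S p) :
    H17C.BClsStatement S p := by
  have hS : S.Nonempty := by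
    obtain ⟨q, hq, -⟩ := hpS
    exact ⟨q, hq⟩
  intro L
  obtain ⟨F, hfd, hgal, hunr, hU, e, he⟩ := hlf.1 L
  let Λ : Lev S := ⟨F, hfd, hgal, hunr⟩
  have hU' : L.U = Λ.F.fixingSubgroup := hU
  refine ⟨F, inferInstance, inferInstance, hgal, Λ.unram, e,
    jHom hS hinj hsurj hsu hlf L Λ hU', jHom_injective hS hinj hsurj hsu hlf L Λ hU', ?_,
    range_index_ne_zero hS hinj hsurj hsu hlf L Λ hU',
    range_index_not_dvd hS hinj hsurj hsu hlf L Λ hU' p hp (hcr hp hpS Λ)⟩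
  intro g b
  obtain ⟨γ, rfl⟩ := QuotientGroup.mk_surjective g
  have e1 : e (γ : GQ ⧸ L.U) = resL Λ γ := by
    ext x
    rw [he, resL_coe]
  rw [e1]
  exact jHom_eqv hS hinj hsurj hsu hlf L Λ hU' γ b

end H22BC

end
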