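/-
W2-C (S55) block C, B-CLS sub-slice CAP (helper6): the Kummer core, at the level of `Qb`.

If `F₀` is unramified outside `S ∋ p` and `w ^ p = α` where (every conjugate of) `α` lies in `F₀` and
is, at every valuation subring `A` of `Qb` over `q ∉ S`, a `p`-th power `π ^ p` (`π ∈ F₀`) times a
unit of `A`, then `F₀(all conjugates of w)` is unramified outside `S`, and its fixing subgroup is
normal if that of `F₀` is.
-/
import Fermat.Agent.CFT2.E.G6_helper6

set_option autoImplicit false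
set_option linter.style.haveILetI false
set_option linter.unusedSectionVars false
set_option linter.unusedVariables false

namespace H6CAP

open H14PT H6G6

local notation "Qb" => AlgebraicClosure ℚ
local notation "GQ" => (AlgebraicClosure ℚ ≃ₐ[ℚ] AlgebraicClosure ℚ)

variable (S : Finset Nat.Primes)

/-- the fixing subgroup of the field generated by the conjugates of `x` is normal -/
theorem h6cap_field_normal (x : Qb) : (h6g6_field x).fixingSubgroup.Normal := by
  constructor
  intro s hs g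
  apply h6g6_mem_fixingSubgroup
  intro σ
  have h1 : s ((g⁻¹ * σ) x) = (g⁻¹ * σ) x :=
    (IntermediateField.mem_fixingSubgroup_iff _ s).1 hs _ (h6g6_conj_mem x (g⁻¹ * σ))
  change g (s (g⁻¹ (σ x))) = σ x
  have h2 : s (g⁻¹ (σ x)) = g⁻¹ (σ x) := h1
  rw [h2]
  change (g * g⁻¹) (σ x) = σ x
  rw [mul_inv_cancel]
  rfl

/-- **CAP core**: the field generated over `F₀` by the conjugates of a `p`-th root `w` of an
element which is locally (outside `S`) a `p`-th power of `F₀` times a unit, is unramified outside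
`S` (`p ∈ S`). -/
theorem h6cap_unram (p : Nat.Primes) (hpS : p ∈ S) (F₀ : IntermediateField ℚ Qb)
    (hF₀ : F₀.IsUnramifiedOutside S) (w : Qb)
    (hloc : ∀ σ : GQ, ∀ q : Nat.Primes, q ∉ S → ∀ A : ValuationSubring Qb,
      A.LiesOverPrime (q : ℕ) → ∃ π : Qb, π ∈ F₀ ∧ π ≠ 0 ∧ σ (w ^ (p : ℕ)) ∈ F₀ ∧
        σ (w ^ (p : ℕ)) / π ^ (p : ℕ) ∈ A ∧ (σ (w ^ (p : ℕ)) / π ^ (p : ℕ))⁻¹ ∈ A) :
    (h6g6_field w ⊔ F₀).IsUnramifiedOutside S := by
  have hFv : (h6g6_field w).IsUnramifiedOutside S := by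
    refine ⟨h6g6_field_finite _, fun q hq A hA τ hτ => ?_⟩
    refine h6g6_mem_fixingSubgroup _ τ (fun σ => ?_)
    have hτF₀ : τ ∈ F₀.fixingSubgroup := hF₀.2 q hq A hA hτ
    obtain ⟨π, hπF, hπ0, hαF, hu1, hu2⟩ := hloc σ q hq A hA
    have hτπ : τ π = π := (IntermediateField.mem_fixingSubgroup_iff _ τ).1 hτF₀ π hπF
    have hτα : τ (σ (w ^ (p : ℕ))) = σ (w ^ (p : ℕ)) :=
      (IntermediateField.mem_fixingSubgroup_iff _ τ).1 hτF₀ _ hαF
    have hpow : (σ w / π) ^ (p : ℕ) = σ (w ^ (p : ℕ)) / π ^ (p : ℕ) := by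
      rw [div_pow, map_pow]
    have hτα' : τ ((σ w) ^ (p : ℕ)) = (σ w) ^ (p : ℕ) := by
      rw [← map_pow σ w]
      exact hτα
    have hfix : τ ((σ w / π) ^ (p : ℕ)) = (σ w / π) ^ (p : ℕ) := by
      rw [div_pow, map_div₀, hτα', map_pow τ π, hτπ]
    have h1 := h6g6_inertia_fix S p hpS q hq A hA τ hτ (σ w / π)
      (by rw [hpow]; exact hu1) (by rw [hpow]; exact hu2) hfix
    rw [map_div₀, hτπ] at h1
    have h2 := congrArg (fun y => y * π) h1
    simp only [div_mul_cancel₀ _ hπ0] at h2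
    exact h2
  exact hFv.sup hF₀

/-- the fixing subgroup of the compositum is normal -/
theorem h6cap_normal (F₀ : IntermediateField ℚ Qb) (hn : F₀.fixingSubgroup.Normal) (w : Qb) :
    (h6g6_field w ⊔ F₀).fixingSubgroup.Normal := by
  rw [IntermediateField.fixingSubgroup_sup]
  haveI := hn
  haveI := h6cap_field_normal w
  infer_instance

theorem h6cap_mem (F₀ : IntermediateField ℚ Qb) (w : Qb) : w ∈ h6g6_field w ⊔ F₀ := by
  have h1 : w ∈ h6g6_field w := by
    have := h6g6_conj_mem w 1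
    simpa using this
  exact (le_sup_left : h6g6_field w ≤ h6g6_field w ⊔ F₀) h1

theorem h6cap_le (F₀ : IntermediateField ℚ Qb) (w : Qb) : F₀ ≤ h6g6_field w ⊔ F₀ := le_sup_right

end H6CAP
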