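/-
W2-C (S55) block C, B-CLS sub-slice **VAL** (helper25): valuation subrings of `Qb` and the primes
of `𝓞_F` outside `S`.  `H25BC.h25bc_val S : H22BC.VALStatement S`.
-/
import Fermat.Agent.CFT2.C.BCls.Defs_helper22

set_option autoImplicit false
set_option linter.unusedSectionVars false
set_option linter.unusedVariables false
set_option linter.style.haveILetI false

noncomputable section

namespace H25BC

open NumberField H14PT H15D IsDedekindDomain

local notation "Qb" => AlgebraicClosure ℚ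
local notation "GQ" => (AlgebraicClosure ℚ ≃ₐ[ℚ] AlgebraicClosure ℚ)

variable (F : IntermediateField ℚ Qb) [FiniteDimensional ℚ F]

/-- the embedding `𝓞_F → Qb` -/
def oEmb : 𝓞 F →+* Qb := (algebraMap F Qb).comp (algebraMap (𝓞 F) F)

theorem oEmb_apply (x : 𝓞 F) : oEmb F x = ((x : F) : Qb) := rfl

theorem oEmb_injective : Function.Injective (oEmb F) := by
  intro x y h
  have h1 : ((x : F) : Qb) = ((y : F) : Qb) := h
  have h2 : (x : F) = (y : F) := Subtype.ext h1
  exact RingOfIntegers.ext h2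

/-- integers of `F` lie in every valuation subring of `Qb` -/
theorem oEmb_mem (A : ValuationSubring Qb) (x : 𝓞 F) : oEmb F x ∈ A := by
  have hx : IsIntegral ℤ (oEmb F x) := by
    have h1 : IsIntegral ℤ x := RingOfIntegers.isIntegral x
    exact h1.map (oEmb F).toIntAlgHom
  have h2 : IsIntegral A (oEmb F x) := hx.tower_top
  obtain ⟨y, hy⟩ := IsIntegrallyClosed.isIntegral_iff.1 h2
  rw [← hy]
  exact y.2

theorem oEmb_val_le (A : ValuationSubring Qb) (x : 𝓞 F) : A.valuation (oEmb F x) ≤ 1 :=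
  (A.valuation_le_one_iff _).2 (oEmb_mem F A x)

/-- the ideal of `𝓞_F` under `𝔪_A` -/
def underA (A : ValuationSubring Qb) : Ideal (𝓞 F) where
  carrier := {x | A.valuation (oEmb F x) < 1}
  add_mem' := by
    intro x y hx hy
    show A.valuation (oEmb F (x + y)) < 1
    rw [map_add]
    exact lt_of_le_of_lt (A.valuation.map_add _ _) (max_lt hx hy)
  zero_mem' := by
    show A.valuation (oEmb F 0) < 1
    rw [map_zero, map_zero]
    exact zero_lt_one
  smul_mem' := by
    intro c x hx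
    show A.valuation (oEmb F (c • x)) < 1
    rw [smul_eq_mul, map_mul, map_mul]
    calc A.valuation (oEmb F c) * A.valuation (oEmb F x)
        ≤ 1 * A.valuation (oEmb F x) := mul_le_mul_left (oEmb_val_le F A c) _
      _ < 1 := by rw [one_mul]; exact hx

theorem mem_underA (A : ValuationSubring Qb) (x : 𝓞 F) :
    x ∈ underA F A ↔ ((x : F) : Qb) ∈ A.nonunits := by
  rw [ValuationSubring.mem_nonunits_iff]
  rfl

theorem underA_ne_top (A : ValuationSubring Qb) : underA F A ≠ ⊤ := by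
  intro h
  have h1 : (1 : 𝓞 F) ∈ underA F A := by rw [h]; exact Submodule.mem_top
  have h2 : A.valuation (oEmb F 1) < 1 := h1
  rw [map_one, map_one] at h2
  exact lt_irrefl _ h2

theorem underA_isPrime (A : ValuationSubring Qb) : (underA F A).IsPrime := by
  refine ⟨underA_ne_top F A, ?_⟩
  intro x y hxy
  have h : A.valuation (oEmb F (x * y)) < 1 := hxy
  rw [map_mul, map_mul] at h
  by_contra hcon
  rw [not_or] at hcon
  have hx : A.valuation (oEmb F x) = 1 :=
    le_antisymm (oEmb_val_le F A x) (not_lt.1 hcon.1)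
  have hy : A.valuation (oEmb F y) = 1 :=
    le_antisymm (oEmb_val_le F A y) (not_lt.1 hcon.2)
  rw [hx, hy, one_mul] at h
  exact lt_irrefl _ h

variable (S : Finset Nat.Primes)

/-- a proper ideal containing a positive integer contains a prime number -/
theorem exists_prime_mem {R : Type*} [CommRing R] (Q : Ideal R) [hQ : Q.IsPrime]
    (h : ∃ n : ℕ, 0 < n ∧ (n : R) ∈ Q) : ∃ q : ℕ, q.Prime ∧ (q : R) ∈ Q := by
  classical
  have hn := Nat.find_spec h
  set n := Nat.find h with hn'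
  refine ⟨n, ?_, hn.2⟩
  have hn1 : n ≠ 1 := by
    intro h1
    have h2 := hn.2
    rw [h1, Nat.cast_one] at h2
    exact hQ.ne_top ((Ideal.eq_top_iff_one Q).2 h2)
  rw [Nat.prime_def_lt]
  refine ⟨by omega, fun m hm hmn => ?_⟩
  obtain ⟨k, hk⟩ := hmn
  have hmpos : 0 < m := Nat.pos_of_ne_zero (fun h0 => by rw [h0, zero_mul] at hk; omega)
  have hkpos : 0 < k := Nat.pos_of_ne_zero (fun h0 => by rw [h0, mul_zero] at hk; omega)
  have hmem : ((m : R) * (k : R)) ∈ Q := by
    rw [← Nat.cast_mul, ← hk]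
    exact hn.2
  rcases hQ.mem_or_mem hmem with h1 | h1
  · exact absurd (Nat.find_min' h ⟨hmpos, h1⟩) (not_le.2 hm)
  · have hkn : n ≤ k := Nat.find_min' h ⟨hkpos, h1⟩
    have : k ≤ n := by rw [hk]; exact Nat.le_mul_of_pos_left k hmpos
    have hkn' : k = n := le_antisymm this hkn
    rw [hkn'] at hk
    have : m = 1 := by
      have h3 : m * n = 1 * n := by rw [one_mul]; exact hk.symm
      exact Nat.eq_of_mul_eq_mul_right hn.1 h3
    exact this

/-- a nonzero ideal of `𝓞_F` contains a positive integer -/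
theorem exists_pos_nat_mem (Q : Ideal (𝓞 F)) (hQ : Q ≠ ⊥) : ∃ n : ℕ, 0 < n ∧ (n : 𝓞 F) ∈ Q := by
  refine ⟨Ideal.absNorm Q, ?_, Ideal.absNorm_mem Q⟩
  exact Nat.pos_of_ne_zero (fun h => hQ (Ideal.absNorm_eq_zero_iff.1 h))

/-- the rational prime under a prime of `𝓞_F` outside `S` -/
theorem exists_ratPrime (Q : H17C.PrimesS S F) :
    ∃ q : Nat.Primes, q ∉ S ∧ (((q : ℕ) : ℤ) : 𝓞 F) ∈ Q.1 := by
  haveI := Q.2.1
  obtain ⟨q, hq, hqQ⟩ := exists_prime_mem Q.1 (exists_pos_nat_mem F Q.1 Q.2.2.1)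
  refine ⟨⟨q, hq⟩, fun hS => Q.2.2.2 ⟨q, hq⟩ hS ?_, ?_⟩
  · rw [Int.cast_natCast]; exact hqQ
  · rw [Int.cast_natCast]; exact hqQ

/-- **(V1)** -/
theorem val_v1 (Q : H17C.PrimesS S F) :
    ∃ (A : ValuationSubring Qb) (q : Nat.Primes), q ∉ S ∧
      A.LiesOverPrime (q : ℕ) ∧ ∀ x : 𝓞 F, x ∈ Q.1 → ((x : F) : Qb) ∈ A.nonunits := by
  haveI := Q.2.1
  obtain ⟨q, hqS, hqQ⟩ := exists_ratPrime F S Q
  -- the image of `Q` in the subring `R = oEmb (𝓞 F)` of `Qb`
  set R : Subring Qb := (oEmb F).range with hR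
  set I : Ideal R := Q.1.map (oEmb F).rangeRestrict with hI
  have hsurj : Function.Surjective (oEmb F).rangeRestrict := (oEmb F).rangeRestrict_surjective
  have hinj : Function.Injective (oEmb F).rangeRestrict := by
    intro x y h
    apply oEmb_injective F
    exact congrArg (fun r : R => (r : Qb)) h
  have hItop : I ≠ ⊤ := by
    intro h
    have h1 : (1 : R) ∈ I := by rw [h]; exact Submodule.mem_top
    rw [hI, Ideal.mem_map_iff_of_surjective _ hsurj] at h1
    obtain ⟨x, hx, hx1⟩ := h1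
    have : x = 1 := hinj (by rw [hx1, map_one])
    rw [this] at hx
    exact Q.2.1.ne_top ((Ideal.eq_top_iff_one _).2 hx)
  obtain ⟨A, hRA, hIA⟩ := Ideal.image_subset_nonunits_valuationSubring I hItop
  have key : ∀ x : 𝓞 F, x ∈ Q.1 → ((x : F) : Qb) ∈ A.nonunits := by
    intro x hx
    apply hIA
    exact ⟨(oEmb F).rangeRestrict x, Ideal.mem_map_of_mem _ hx, rfl⟩
  refine ⟨A, q, hqS, ?_, key⟩
  have h1 := key _ hqQ
  show ((q : ℕ) : Qb) ∈ A.nonunits
  have h2 : ((((((q : ℕ) : ℤ) : 𝓞 F) : 𝓞 F) : F) : Qb) = ((q : ℕ) : Qb) := by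
    simp
  rwa [h2] at h1

/-- **(V2)** -/
theorem val_v2 (A : ValuationSubring Qb) (q : Nat.Primes) (hqS : q ∉ S)
    (hA : A.LiesOverPrime (q : ℕ)) :
    ∃ Q : H17C.PrimesS S F, ∀ x : 𝓞 F, x ∈ Q.1 ↔ ((x : F) : Qb) ∈ A.nonunits := by
  have hq : (((q : ℕ) : ℤ) : 𝓞 F) ∈ underA F A := by
    rw [mem_underA]
    have h2 : ((((((q : ℕ) : ℤ) : 𝓞 F) : 𝓞 F) : F) : Qb) = ((q : ℕ) : Qb) := by
      simp
    rw [h2]
    exact hA
  have hq0 : (((q : ℕ) : ℤ) : 𝓞 F) ≠ 0 := by
    rw [Int.cast_natCast]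
    exact Nat.cast_ne_zero.2 q.2.ne_zero
  refine ⟨⟨underA F A, underA_isPrime F A, ?_, ?_⟩, fun x => mem_underA F A x⟩
  · intro h
    rw [h] at hq
    exact hq0 ((Submodule.mem_bot _).1 hq)
  · intro q' hq'S hq'
    have hne : (q : ℕ) ≠ (q' : ℕ) := by
      intro h
      apply hqS
      have : q = q' := Subtype.ext h
      rw [this]
      exact hq'S
    have hcop : Nat.Coprime (q : ℕ) (q' : ℕ) := (Nat.coprime_primes q.2 q'.2).2 hne
    have hcop' : IsCoprime ((q : ℕ) : ℤ) ((q' : ℕ) : ℤ) := Nat.isCoprime_iff_coprime.2 hcop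
    obtain ⟨a, b, hab⟩ := hcop'
    have h1 : ((a * ((q : ℕ) : ℤ) + b * ((q' : ℕ) : ℤ) : ℤ) : 𝓞 F) ∈ underA F A := by
      rw [Int.cast_add, Int.cast_mul, Int.cast_mul]
      exact (underA F A).add_mem ((underA F A).mul_mem_left _ hq)
        ((underA F A).mul_mem_left _ hq')
    rw [hab, Int.cast_one] at h1
    exact underA_ne_top F A ((Ideal.eq_top_iff_one _).2 h1)

/-- a prime of `𝓞_F` contained in `𝔪_A` is the prime under `A` -/
theorem eq_underA (A : ValuationSubring Qb) (Q : H17C.PrimesS S F)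
    (h : ∀ x : 𝓞 F, x ∈ Q.1 → ((x : F) : Qb) ∈ A.nonunits) : Q.1 = underA F A := by
  haveI := Q.2.1
  have hmax : Q.1.IsMaximal := Ideal.IsPrime.isMaximal Q.2.1 Q.2.2.1
  exact hmax.eq_of_le (underA_ne_top F A) (fun x hx => (mem_underA F A x).2 (h x hx))

/-- comparison of the `Q`-adic valuation on `F` with the valuation of `A` -/
theorem val_compare (A : ValuationSubring Qb) (Q : H17C.PrimesS S F)
    (h : ∀ x : 𝓞 F, x ∈ Q.1 → ((x : F) : Qb) ∈ A.nonunits) (a : F) :
    (Q.toHOS.valuation F a ≤ 1 → A.valuation (a : Qb) ≤ 1) ∧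
    (Q.toHOS.valuation F a < 1 → A.valuation (a : Qb) < 1) := by
  have hQ := eq_underA F S A Q h
  have hstep : Q.toHOS.valuation F a ≤ 1 → ∃ (n d : 𝓞 F), d ∉ Q.1 ∧
      a * (d : F) = (n : F) ∧ A.valuation (oEmb F d) = 1 ∧
      A.valuation (a : Qb) = A.valuation (oEmb F n) ∧
      Q.toHOS.valuation F a = Q.toHOS.valuation F (n : F) := by
    intro hle
    obtain ⟨n, d, hnd⟩ := HeightOneSpectrum.exists_primeCompl_mul_eq_of_integer Q.toHOS a hle
    have hd : (d : 𝓞 F) ∉ Q.1 := d.2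
    have hwd : A.valuation (oEmb F d) = 1 := by
      refine le_antisymm (oEmb_val_le F A d) (not_lt.1 (fun hlt => hd ?_))
      rw [hQ]
      exact hlt
    have hvd : Q.toHOS.valuation F ((d : 𝓞 F) : F) = 1 :=
      (HeightOneSpectrum.valuation_eq_one_iff_notMem (K := F) (v := Q.toHOS)).2 hd
    refine ⟨n, d, hd, hnd, hwd, ?_, ?_⟩
    · have h1 : ((a : F) : Qb) * oEmb F d = oEmb F n := by
        have := congrArg (fun z : F => (z : Qb)) hnd
        exact this
      have h2 := congrArg A.valuation h1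
      rw [map_mul, hwd, mul_one] at h2
      exact h2
    · have h2 := congrArg (Q.toHOS.valuation F) hnd
      rw [map_mul] at h2
      have h3 : Q.toHOS.valuation F (algebraMap (𝓞 F) F (d : 𝓞 F)) = 1 := hvd
      rw [h3, mul_one] at h2
      exact h2
  constructor
  · intro hle
    obtain ⟨n, d, -, -, -, hw, -⟩ := hstep hle
    rw [hw]
    exact oEmb_val_le F A n
  · intro hlt
    obtain ⟨n, d, -, -, -, hw, hv⟩ := hstep hlt.le
    rw [hw]
    rw [hv] at hlt
    have hn : n ∈ Q.1 := (HeightOneSpectrum.valuation_lt_one_iff_mem (K := F) Q.toHOS n).1 hlt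
    rw [hQ] at hn
    exact hn

/-- **(V3)** -/
theorem val_v3 (A : ValuationSubring Qb) (Q : H17C.PrimesS S F)
    (h : ∀ x : 𝓞 F, x ∈ Q.1 → ((x : F) : Qb) ∈ A.nonunits) (a : F) (ha : a ≠ 0) :
    H17C.ordP Q a = 0 ↔ ((a : Qb) ∈ A ∧ ((a : Qb))⁻¹ ∈ A) := by
  have hv0 : Q.toHOS.valuation F a ≠ 0 := (Valuation.ne_zero_iff _).2 ha
  have haQ : (a : Qb) ≠ 0 := fun h0 => ha (Subtype.ext h0)
  have hord : H17C.ordP Q a = 0 ↔ Q.toHOS.valuation F a = 1 := by
    unfold H17C.ordP
    rw [neg_eq_zero]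
    constructor
    · intro h0
      have h1 := WithZero.exp_log hv0
      rw [h0] at h1
      rw [← h1]
      rfl
    · intro h1
      rw [h1]
      rfl
  rw [hord, ← A.valuation_le_one_iff, ← A.valuation_le_one_iff]
  have hinv : (((a⁻¹ : F) : F) : Qb) = ((a : Qb))⁻¹ := rfl
  constructor
  · intro h1
    refine ⟨(val_compare F S A Q h a).1 h1.le, ?_⟩
    rw [← hinv]
    refine (val_compare F S A Q h a⁻¹).1 ?_
    rw [map_inv₀, h1, inv_one]
  · rintro ⟨h1, h2⟩
    rcases lt_trichotomy (Q.toHOS.valuation F a) 1 with hlt | heq | hgt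
    · exfalso
      have h3 := (val_compare F S A Q h a).2 hlt
      rw [map_inv₀] at h2
      have h4 : (1 : _) ≤ A.valuation (a : Qb) := by
        have hw0 : A.valuation (a : Qb) ≠ 0 := (Valuation.ne_zero_iff _).2 haQ
        exact (inv_le_one₀ (zero_lt_iff.2 hw0)).1 h2
      exact absurd h3 (not_lt.2 h4)
    · exact heq
    · exfalso
      have hlt : Q.toHOS.valuation F a⁻¹ < 1 := by
        rw [map_inv₀]
        exact inv_lt_one_of_one_lt₀ hgt
      have h3 := (val_compare F S A Q h a⁻¹).2 hlt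
      rw [hinv, map_inv₀] at h3
      have hw0 : A.valuation (a : Qb) ≠ 0 := (Valuation.ne_zero_iff _).2 haQ
      have h4 : 1 < A.valuation (a : Qb) := (inv_lt_one₀ (zero_lt_iff.2 hw0)).1 h3
      exact absurd h1 (not_le.2 h4)

/-- **(VAL)** -/
theorem h25bc_val : H22BC.VALStatement S := by
  intro F _
  exact ⟨fun Q => val_v1 F S Q, fun A q hq hA => val_v2 F S A q hq hA,
    fun A Q h a ha => val_v3 F S A Q h a ha⟩

end H25BC

end
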