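/-
W2-C (S55) block C, B-CLS sub-slice **CAP** (helper6): `H22BC.CapStatement S p` from `VALStatement S`.

If `div_S a = p · d` in a Galois `S`-level `F` (`p ∈ S`), then `F' := F(all conjugates of a^{1/p})` is
a finite Galois extension of `ℚ`, unramified outside `S`, containing a `p`-th root of `a`.
(Local condition of `H6CAP.h6cap_unram`: for `A` over `q ∉ S` and `σ ∈ GQ`, `Q := 𝔪_A ∩ 𝓞_F` (V2),
`ord_Q (σ a) = p m`; `π := π₀ ^ m` with `ord_Q π₀ = 1`; `σ a / π ^ p` has `ord_Q = 0`, so it is a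
unit of `A` (V3).)
-/
import Fermat.Agent.CFT2.C.BCls.CapCore_helper6
import Fermat.Agent.CFT2.C.BCls.Defs_helper22
import Fermat.Agent.CFT2.C.BCls.VAL_helper25

set_option autoImplicit false
set_option linter.style.haveILetI false
set_option linter.unusedSectionVars false
set_option linter.unusedVariables false

namespace H6CAP

open NumberField H14PT H6G6 IsDedekindDomain

local notation "Qb" => AlgebraicClosure ℚ
local notation "GQ" => (AlgebraicClosure ℚ ≃ₐ[ℚ] AlgebraicClosure ℚ)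

variable (S : Finset Nat.Primes)

/-- a uniformizer at a prime outside `S` -/
theorem h6cap_exists_unif {K : Type} [Field K] [NumberField K] (Q : H17C.PrimesS S K) :
    ∃ π : K, π ≠ 0 ∧ H17C.ordP Q π = 1 := by
  obtain ⟨π, hπ⟩ := Q.toHOS.valuation_exists_uniformizer K
  refine ⟨π, ?_, ?_⟩
  · rintro rfl
    rw [map_zero] at hπ
    exact WithZero.exp_ne_zero hπ.symm
  · unfold H17C.ordP
    rw [hπ]
    simp

theorem h6cap_ordP_zpow {K : Type} [Field K] [NumberField K] (Q : H17C.PrimesS S K) (x : K)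
    (m : ℤ) : H17C.ordP Q (x ^ m) = m * H17C.ordP Q x := by
  unfold H17C.ordP
  rw [map_zpow₀, WithZero.log_zpow]
  simp

/-- the field generated by the conjugates of `x` is normal over `ℚ` -/
theorem h6cap_field_isNormal' (x : Qb) :
    @Normal ℚ ↥(h6g6_field x) _ _ (IntermediateField.algebra' _) := by
  haveI halg : Algebra.IsAlgebraic ℚ Qb := AlgebraicClosure.isAlgebraic ℚ
  haveI : Normal ℚ Qb :=
    normal_iff.2 fun x => ⟨(halg.isAlgebraic x).isIntegral, IsAlgClosed.splits _⟩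
  rw [IntermediateField.normal_iff_forall_map_le']
  intro σ
  unfold h6g6_field
  rw [IntermediateField.adjoin_map, IntermediateField.adjoin_le_iff]
  rintro _ ⟨_, ⟨τ, rfl⟩, rfl⟩
  exact IntermediateField.subset_adjoin ℚ _ ⟨σ * τ, rfl⟩

theorem h6cap_field_isNormal (x : Qb) : Normal ℚ (h6g6_field x) := h6cap_field_isNormal' x

/-- the compositum of the field of conjugates of `w` with a normal field is normal -/
theorem h6cap_sup_isNormal (F : IntermediateField ℚ Qb) [hF : Normal ℚ F] (w : Qb) :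
    Normal ℚ ↥(h6g6_field w ⊔ F) := by
  haveI h1 : @Normal ℚ ↥(h6g6_field w) _ _ (IntermediateField.algebra' _) :=
    h6cap_field_isNormal' w
  haveI h2 : @Normal ℚ ↥F _ _ (IntermediateField.algebra' _) := hF
  have h3 : @Normal ℚ ↥(h6g6_field w ⊔ F) _ _ (IntermediateField.algebra' _) :=
    IntermediateField.normal_sup ℚ Qb _ _
  exact h3

/-- **(CAP)** from (VAL). -/
theorem h6cap_cap_of_val (p : ℕ) (hval : H22BC.VALStatement S) : H22BC.CapStatement S p := by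
  intro hp hpS F _ _ hF a d hdiv
  obtain ⟨q0, hq0S, rfl⟩ := hpS
  obtain ⟨w, hw⟩ : ∃ w : Qb, w ^ (q0 : ℕ) = ((a : F) : Qb) :=
    IsAlgClosed.exists_pow_nat_eq _ hp.pos
  refine ⟨h6g6_field w ⊔ F, h6cap_le F w, ?_, ?_, w, h6cap_mem F w, hw⟩
  · refine h6cap_unram S q0 hq0S F hF w ?_
    intro σ q hq A hA
    let σ' : F ≃ₐ[ℚ] F := AlgEquiv.restrictNormal σ F
    have hσ' : ∀ x : F, ((σ' x : F) : Qb) = σ (x : Qb) :=
      fun x => AlgEquiv.restrictNormal_commutes σ F x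
    obtain ⟨-, hV2, hV3⟩ := hval F
    obtain ⟨Q, hQ⟩ := hV2 A q hq hA
    obtain ⟨π₀, hπ₀0, hπ₀⟩ := h6cap_exists_unif S Q
    have ha0 : (a : F) ≠ 0 := a.ne_zero
    have hσa0 : σ' (a : F) ≠ 0 := (map_ne_zero_iff _ σ'.injective).2 ha0
    have hord : H17C.ordP Q (σ' (a : F)) = (q0 : ℕ) * d (σ'⁻¹ • Q) := by
      have h1 := H17C.ordP_smul S ℚ F σ' (σ'⁻¹ • Q) (a : F)
      rw [smul_inv_smul] at h1
      rw [h1]
      have h2 := DFunLike.congr_fun hdiv (σ'⁻¹ • Q)
      rw [H17C.divS_apply] at h2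
      rw [toMul_ofMul] at h2
      rw [h2]
      simp
    set m : ℤ := d (σ'⁻¹ • Q) with hm
    set u : F := σ' (a : F) * π₀ ^ (-((q0 : ℕ) * m : ℤ)) with hu
    have hπz0 : π₀ ^ (-((q0 : ℕ) * m : ℤ)) ≠ 0 := zpow_ne_zero _ hπ₀0
    have hu0 : u ≠ 0 := mul_ne_zero hσa0 hπz0
    have hordu : H17C.ordP Q u = 0 := by
      rw [hu, H17C.ordP_mul Q hσa0 hπz0, hord, h6cap_ordP_zpow, hπ₀]
      ring
    have hmem := (hV3 A Q (fun x hx => (hQ x).1 hx) u hu0).1 hordu
    have hcoe : ((u : F) : Qb) = σ (w ^ (q0 : ℕ)) / ((π₀ ^ m : F) : Qb) ^ (q0 : ℕ) := by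
      rw [hu, hw, ← hσ']
      have e1 : (π₀ ^ m : F) ^ (q0 : ℕ) * π₀ ^ (-((q0 : ℕ) * m : ℤ)) = 1 := by
        rw [← zpow_natCast, ← zpow_mul, ← zpow_add₀ hπ₀0]
        have : m * ((q0 : ℕ) : ℤ) + -(((q0 : ℕ) : ℤ) * m) = 0 := by ring
        rw [this, zpow_zero]
      have e2 : ((π₀ ^ m : F) : Qb) ^ (q0 : ℕ) ≠ 0 :=
        pow_ne_zero _ (by
          intro h
          exact zpow_ne_zero m hπ₀0 (by exact_mod_cast h))
      rw [eq_div_iff e2]
      have e3 : (((σ' (a : F) * π₀ ^ (-((q0 : ℕ) * m : ℤ)) : F) : Qb)) *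
          ((π₀ ^ m : F) : Qb) ^ (q0 : ℕ) =
          (((σ' (a : F) * ((π₀ ^ m : F) ^ (q0 : ℕ) * π₀ ^ (-((q0 : ℕ) * m : ℤ))) : F)) : Qb) := by
        push_cast
        ring
      rw [e3, e1, mul_one]
    refine ⟨((π₀ ^ m : F) : Qb), SetLike.coe_mem _, ?_, ?_, ?_, ?_⟩
    · intro h
      exact zpow_ne_zero m hπ₀0 (by exact_mod_cast h)
    · rw [hw, ← hσ']
      exact SetLike.coe_mem _
    · rw [← hcoe]
      exact hmem.1
    · rw [← hcoe]
      exact hmem.2
  · haveI : Normal ℚ (↥(h6g6_field w ⊔ F)) := h6cap_sup_isNormal F w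
    exact ⟨⟩

/-- **(CAP)**, unconditional.  (Note: `F'.IsUnramifiedOutside S` contains
`FiniteDimensional ℚ F'` as its first component.) -/
theorem h6cap_cap (p : ℕ) : H22BC.CapStatement S p :=
  h6cap_cap_of_val S p (H25BC.h25bc_val S)

end H6CAP
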