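/-
W2-C (S55) block C, B-CLS sub-slice **S-UNITS** (helper25):
for `a ∈ Fˣ` (`F/ℚ` finite Galois, unramified outside `S`): `a ∈ E = sUnits S ⇔ div_S a = 0`.
`H25BC.h25bc_sUnits S : H22BC.SUnitsStatement S`.
-/
import Fermat.Agent.CFT2.C.BCls.VAL_helper25

set_option autoImplicit false
set_option linter.unusedSectionVars false
set_option linter.unusedVariables false
set_option linter.style.haveILetI false

noncomputable section

namespace H25BC

open NumberField H14PT H15D IsDedekindDomain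

local notation "Qb" => AlgebraicClosure ℚ
local notation "GQ" => (AlgebraicClosure ℚ ≃ₐ[ℚ] AlgebraicClosure ℚ)

variable (S : Finset Nat.Primes) (F : IntermediateField ℚ Qb) [FiniteDimensional ℚ F]

/-- `div_S a = 0` iff all `ord_Q a` vanish -/
theorem divS_eq_zero_iff (a : (↥F)ˣ) :
    H17C.divS S F (Additive.ofMul a) = 0 ↔ ∀ Q : H17C.PrimesS S F, H17C.ordP Q (a : F) = 0 := by
  constructor
  · intro h Q
    have h1 := congrArg (fun d : H17C.DivS S F => d Q) h
    simpa [H17C.divS_apply] using h1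
  · intro h
    ext Q
    rw [H17C.divS_apply]
    exact h Q

/-- the valuation subring `σ⁻¹ A` -/
def conjA (A : ValuationSubring Qb) (σ : GQ) : ValuationSubring Qb :=
  A.comap ((σ : Qb ≃+* Qb) : Qb →+* Qb)

theorem mem_conjA (A : ValuationSubring Qb) (σ : GQ) (x : Qb) :
    x ∈ conjA A σ ↔ σ x ∈ A := Iff.rfl

theorem conjA_liesOver (A : ValuationSubring Qb) (σ : GQ) (q : ℕ) (hA : A.LiesOverPrime q) :
    (conjA A σ).LiesOverPrime q := by
  have h1 : (q : Qb) ∈ A.nonunits := hA
  show (q : Qb) ∈ (conjA A σ).nonunits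
  rw [ValuationSubring.mem_nonunits_iff_or] at h1 ⊢
  rcases h1 with h1 | h1
  · exact Or.inl h1
  · refine Or.inr (fun h2 => h1 ?_)
    have h3 : σ ((q : Qb)⁻¹) ∈ A := (mem_conjA A σ _).1 h2
    rwa [map_inv₀, map_natCast] at h3

/-- units outside `S` from the vanishing of the divisor (no normality needed) -/
theorem isUnitOutside_of_ordP (a : F) (ha : a ≠ 0)
    (h : ∀ Q : H17C.PrimesS S F, H17C.ordP Q a = 0) : IsUnitOutside S (a : Qb) := by
  intro σ q hq A hA
  obtain ⟨Q, hQ⟩ := val_v2 F S (conjA A σ) q hq (conjA_liesOver A σ q hA)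
  have h1 := (val_v3 F S (conjA A σ) Q (fun x hx => (hQ x).1 hx) a ha).1 (h Q)
  refine ⟨(mem_conjA A σ _).1 h1.1, ?_⟩
  have h2 := (mem_conjA A σ _).1 h1.2
  rwa [map_inv₀] at h2

/-- the vanishing of the divisor from units outside `S` -/
theorem ordP_of_isUnitOutside (a : F) (ha : a ≠ 0) (h : IsUnitOutside S (a : Qb))
    (Q : H17C.PrimesS S F) : H17C.ordP Q a = 0 := by
  obtain ⟨A, q, hq, hA, hQ⟩ := val_v1 F S Q
  have h1 := h 1 q hq A hA
  exact (val_v3 F S A Q hQ a ha).2 ⟨h1.1, h1.2⟩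

/-- elements of a normal `S`-level are `S`-smooth -/
theorem isSmoothS_of_mem [IsGalois ℚ F] (hF : F.IsUnramifiedOutside S) (a : F) :
    IsSmoothS S (a : Qb) := by
  refine ⟨F, hF, fun s hs σ => ?_⟩
  have hmem : σ (a : Qb) ∈ F := by
    have h1 : ((AlgEquiv.restrictNormal σ F a : F) : Qb) = σ (a : Qb) :=
      AlgEquiv.restrictNormal_commutes σ F a
    rw [← h1]
    exact (AlgEquiv.restrictNormal σ F a).2
  exact (IntermediateField.mem_fixingSubgroup_iff F s).1 hs _ hmem

/-- **(S-UNITS)** -/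
theorem h25bc_sUnits : H22BC.SUnitsStatement S := by
  intro F _ _ hF a
  rw [divS_eq_zero_iff, mem_sUnits_iff]
  have ha : (a : F) ≠ 0 := a.ne_zero
  constructor
  · rintro ⟨-, h2⟩ Q
    exact ordP_of_isUnitOutside S F (a : F) ha h2 Q
  · intro h
    exact ⟨isSmoothS_of_mem S F hF (a : F), isUnitOutside_of_ordP S F (a : F) ha h⟩

end H25BC

end
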