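/-
CAP-REL (B-CLS cokernel step), helper26.
`h26_capRel : CapStatement S p → CapRelStatement S p`:
Kummer capitulation applied to the element `a` with `(a) = p • D` gives a root `w₀` over a bigger
level; the corrected idele `x · w₀` is Galois-invariant modulo S-units.
-/
import Fermat.Agent.CFT2.C.BCls.Rel1_helper22
import Fermat.Agent.CFT2.C.BCls.SUnits_helper25

set_option autoImplicit false
set_option linter.style.haveILetI false
set_option linter.unusedSectionVars false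
set_option linter.unusedVariables false
noncomputable section
namespace H26CR

open NumberField H14PT H15D H17C H22BC

local notation "Qb" => AlgebraicClosure ℚ
local notation "GQ" => (AlgebraicClosure ℚ ≃ₐ[ℚ] AlgebraicClosure ℚ)

/-- primes are prime. -/
local instance factPrimeCR (q : Nat.Primes) : Fact (q : ℕ).Prime := ⟨q.2⟩

variable {S : Finset Nat.Primes}

theorem princHom_fst (K : Type) [Field K] [NumberField K] (a : Kˣ) :
    (princHom S K (Additive.ofMul a)).1 = Additive.ofMul (diagS S K a) := rfl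

theorem princHom_snd (K : Type) [Field K] [NumberField K] (a : Kˣ) :
    (princHom S K (Additive.ofMul a)).2 = divS S K (Additive.ofMul a) := rfl

/-- elements fixing `F` act trivially on base changes from `F` -/
theorem ambRep_baseAmb (Λ Λ₂ : Lev S) (h : Λ.F ≤ Λ₂.F) (s : GQ) (hs : s ∈ Λ.F.fixingSubgroup)
    (z : AmbS S Λ.F) :
    ambRep S ℚ Λ₂.F (resL Λ₂ s) (baseAmb Λ Λ₂ h z) = baseAmb Λ Λ₂ h z := by
  have h1 := baseAmb_eqv Λ Λ₂ h s z
  rw [(resL_eq_one_iff Λ s).mpr hs, map_one] at h1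
  exact h1.symm

theorem divS_pow (K : Type) [Field K] [NumberField K] (a : Kˣ) (n : ℕ) :
    divS S K (Additive.ofMul (a ^ n)) = n • divS S K (Additive.ofMul a) := by
  rw [ofMul_pow, map_nsmul]

theorem divS_div (K : Type) [Field K] [NumberField K] (a b : Kˣ) :
    divS S K (Additive.ofMul (a / b)) = divS S K (Additive.ofMul a) - divS S K (Additive.ofMul b) := by
  rw [ofMul_div, map_sub]

/-- **(CAP-REL)** -/
theorem h26_capRel (S : Finset Nat.Primes) (p : ℕ) (hcap : H22BC.CapStatement S p) :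
    H22BC.CapRelStatement S p := by
  intro hp hpS Λ w b hrel
  have hS : S.Nonempty := by
    obtain ⟨q, hq, -⟩ := hpS
    exact ⟨q, hq⟩
  obtain ⟨Λ₁, h01, x, hb, hc⟩ := hrel
  rw [cls_eq_iff] at hc
  obtain ⟨a', ha'⟩ := (mem_princS_iff S _ _).1 hc
  set a : (↥Λ₁.F)ˣ := Additive.toMul a' with ha
  have ha2 : princHom S Λ₁.F (Additive.ofMul a) =
      (Additive.ofMul x, 0) - baseAmb Λ Λ₁ h01 (p • w) := ha'
  -- the divisor of `a`
  have hdiv : divS S Λ₁.F (Additive.ofMul a) = p • (-(baseDiv Λ Λ₁ h01 w.2)) := by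
    have h1 := congrArg Prod.snd ha2
    rw [princHom_snd, map_nsmul] at h1
    rw [h1, smul_neg]
    change (0 : DivS S Λ₁.F) - (p • baseAmb Λ Λ₁ h01 w).2 = _
    rw [zero_sub]
    rfl
  -- CAP
  obtain ⟨F', hF1, hunr', hgal', w₀, hw₀F', hw₀p⟩ :=
    hcap hp hpS Λ₁.F Λ₁.unr a (-(baseDiv Λ Λ₁ h01 w.2)) hdiv
  obtain ⟨Λ₂, rfl⟩ : ∃ Λ₂ : Lev S, Λ₂.F = F' := ⟨⟨F', hunr'.1, hgal', hunr'⟩, rfl⟩
  have h12 : Λ₁.F ≤ Λ₂.F := hF1
  have h02 : Λ.F ≤ Λ₂.F := h01.trans h12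
  have hw₀0 : (⟨w₀, hw₀F'⟩ : Λ₂.F) ≠ 0 := by
    intro h0
    have h1 : w₀ = 0 := congrArg Subtype.val h0
    rw [h1, zero_pow hp.ne_zero] at hw₀p
    have h2 : (a : Λ₁.F) = 0 := Subtype.ext hw₀p.symm
    exact a.ne_zero h2
  set w₀u : (↥Λ₂.F)ˣ := Units.mk0 ⟨w₀, hw₀F'⟩ hw₀0 with hw₀u
  have hpow : w₀u ^ p =
      Units.map ((IntermediateField.inclusion h12 : Λ₁.F →+* Λ₂.F) : Λ₁.F →* Λ₂.F) a := by
    apply Units.ext
    apply Subtype.ext
    rw [Units.val_pow_eq_pow_val]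
    exact hw₀p
  -- the divisor of `w₀`
  have hdiv0 : divS S Λ₂.F (Additive.ofMul w₀u) = -(baseDiv Λ Λ₂ h02 w.2) := by
    have h1 : p • divS S Λ₂.F (Additive.ofMul w₀u) = p • (-(baseDiv Λ Λ₂ h02 w.2)) := by
      rw [← divS_pow, hpow]
      have h2 := congrArg Prod.snd (baseAmb_princ Λ₁ Λ₂ h12 hS a)
      rw [princHom_snd] at h2
      rw [← h2]
      change baseDiv Λ₁ Λ₂ h12 (divS S Λ₁.F (Additive.ofMul a)) = _
      rw [hdiv, map_nsmul, map_neg]
      have h3 := congrArg Prod.snd (baseAmb_comp Λ Λ₁ Λ₂ h01 h12 w)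
      change baseDiv Λ₁ Λ₂ h12 (baseDiv Λ Λ₁ h01 w.2) = baseDiv Λ Λ₂ h02 w.2 at h3
      rw [h3]
    have hinj : Function.Injective (fun d : DivS S Λ₂.F => p • d) := by
      intro d d' hdd
      ext Q
      have := congrArg (fun f : DivS S Λ₂.F => f Q) hdd
      simp only [Finsupp.smul_apply, nsmul_eq_mul] at this
      have hp0 : ((p : ℕ) : ℤ) ≠ 0 := by exact_mod_cast hp.ne_zero
      exact mul_left_cancel₀ hp0 this
    exact hinj h1
  -- the new idele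
  set x' : (KS S Λ₂.F)ˣ := baseIdele Λ Λ₂ h02 (Additive.toMul w.1) * diagS S Λ₂.F w₀u with hx'
  refine ⟨mkB (tI Λ₂ x'), ?_, Λ₂, h02, x', rfl, ?_⟩
  · -- invariance
    intro s hs
    rw [ρB_mkB, ← tI_smul Λ₂ (resL Λ₂ s) s (fun y => (resL_coe Λ₂ s y).symm)]
    have hfix := ambRep_baseAmb Λ Λ₂ h02 s hs w
    have hfix1 : resL Λ₂ s • baseIdele Λ Λ₂ h02 (Additive.toMul w.1)
        = baseIdele Λ Λ₂ h02 (Additive.toMul w.1) := by
      have := congrArg Prod.fst hfix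
      exact congrArg Additive.toMul this
    have hfix2 : divRep S ℚ Λ₂.F (resL Λ₂ s) (baseDiv Λ Λ₂ h02 w.2) = baseDiv Λ Λ₂ h02 w.2 :=
      congrArg Prod.snd hfix
    -- the unit `ε = σ w₀ / w₀`
    set ε : (↥Λ₂.F)ˣ :=
      Units.map ((resL Λ₂ s : Λ₂.F ≃ₐ[ℚ] Λ₂.F) : Λ₂.F →* Λ₂.F) w₀u / w₀u with hε
    have hεdiv : divS S Λ₂.F (Additive.ofMul ε) = 0 := by
      rw [hε, divS_div, divS_smul S ℚ Λ₂.F (resL Λ₂ s) w₀u, hdiv0, map_neg, hfix2, sub_self]
    have hεS := (H25BC.h25bc_sUnits S Λ₂.F Λ₂.unr ε).mpr hεdiv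
    have hε0 : mkB (tI Λ₂ (diagS S Λ₂.F ε)) = 0 :=
      (mkB_eq_zero_iff _).mpr ⟨_, (tI_diag Λ₂ ε hεS).symm⟩
    have hx'' : resL Λ₂ s • x' = x' * diagS S Λ₂.F ε := by
      rw [hx', smul_mul', hfix1, ideleAct_diagS, mul_assoc, ← map_mul, hε, mul_div_cancel]
    rw [hx'', map_mul, mkB_mul, hε0, add_zero]
  · -- the relation
    rw [cls_eq_iff]
    refine (mem_princS_iff S _ _).2 ⟨Additive.ofMul w₀u, ?_⟩
    refine Prod.ext ?_ ?_
    · rw [princHom_fst]
      change _ = Additive.ofMul x' - Additive.ofMul (baseIdele Λ Λ₂ h02 (Additive.toMul w.1))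
      rw [hx', ofMul_mul, add_sub_cancel_left]
    · rw [princHom_snd, hdiv0]
      change _ = (0 : DivS S Λ₂.F) - baseDiv Λ Λ₂ h02 w.2
      rw [zero_sub]

end H26CR
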