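/-
W2-C (S55) block C transport, B-CLS complements (helper22): `j` commutes with norms, and the
rational ideles: `t (1 ⊗ y)` is the constant idele, `j [const y] = [(1 ⊗ y, 0)]`.
-/
import Fermat.Agent.CFT2.C.BCls.Asm_helper22

set_option autoImplicit false
set_option linter.unusedSectionVars false
set_option linter.unusedVariables false
set_option linter.style.haveILetI false

noncomputable section

namespace H22BC

open NumberField H14PT H15D

local notation "Qb" => AlgebraicClosure ℚ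
local notation "GQ" => (AlgebraicClosure ℚ ≃ₐ[ℚ] AlgebraicClosure ℚ)

/-- primes are prime. -/
local instance factPrimeNorm (q : Nat.Primes) : Fact (q : ℕ).Prime := ⟨q.2⟩

variable {S : Finset Nat.Primes}

/-- `GQ ⧸ U ≃* Aut F` by restriction -/
def eL (L : (levelsS S).Lv) (Λ : Lev S) (hU : L.U = Λ.F.fixingSubgroup) :
    (GQ ⧸ L.U) ≃* H17C.AutQ Λ.F :=
  H9BL.resEquiv Λ.F L.U hU

theorem eL_mk (L : (levelsS S).Lv) (Λ : Lev S) (hU : L.U = Λ.F.fixingSubgroup) (g : GQ) :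
    eL L Λ hU (g : GQ ⧸ L.U) = resL Λ g := by
  ext x
  rw [resL_coe]
  exact H9BL.resEquiv_apply Λ.F L.U hU g x

/-- the value of `t` on `1 ⊗ y` -/
theorem tF_loc_unit (F : IntermediateField ℚ Qb) [FiniteDimensional ℚ F] (y : H17C.QS S) (q : S)
    (g : GQ) : tF S F (H17C.locRing S F y) q g =
      algebraMap ℚ_[((q : Nat.Primes) : ℕ)] (PadicAlgCl ((q : Nat.Primes) : ℕ)) (y q) := by
  rw [H17C.locRing_apply, tF_tmul]
  have : (((1 : F) : Qb)) = 1 := rfl
  rw [this, map_one, map_one, one_mul]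

section inputs

variable (hS : S.Nonempty) (hinj : TensorInjStatement S) (hsurj : TensorSurjStatement S)
  (hsu : SUnitsStatement S) (hlf : LevelFieldStatement S)
  (L : (levelsS S).Lv) (Λ : Lev S) (hU : L.U = Λ.F.fixingSubgroup)

include hS hinj hsurj hsu hlf hU

theorem jHom_eqv' (n : GQ ⧸ L.U) (b : (BL S L).V) :
    jHom hS hinj hsurj hsu hlf L Λ hU ((BL S L).ρ n b) =
      H17C.clsRep S ℚ Λ.F (eL L Λ hU n) (jHom hS hinj hsurj hsu hlf L Λ hU b) := by
  obtain ⟨γ, rfl⟩ := QuotientGroup.mk_surjective n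
  rw [eL_mk]
  exact jHom_eqv hS hinj hsurj hsu hlf L Λ hU γ b

/-- `j` commutes with the norms -/
theorem jHom_norm (d : (BL S L).V) :
    jHom hS hinj hsurj hsu hlf L Λ hU (H17C.subNorm (BL S L).ρ ⊤ d) =
      H17C.clsN S Λ.F ⊤ (jHom hS hinj hsurj hsu hlf L Λ hU d) := by
  classical
  letI : Fintype (⊤ : Subgroup (GQ ⧸ L.U)) := Fintype.ofFinite _
  letI : Fintype (⊤ : Subgroup (H17C.AutQ Λ.F)) := Fintype.ofFinite _
  have h1 : H17C.subNorm (BL S L).ρ ⊤ d =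
      ∑ n : (⊤ : Subgroup (GQ ⧸ L.U)), (BL S L).ρ (n : GQ ⧸ L.U) d := by
    unfold H17C.subNorm
    congr 1
  have h2 : H17C.clsN S Λ.F ⊤ (jHom hS hinj hsurj hsu hlf L Λ hU d) =
      ∑ h : (⊤ : Subgroup (H17C.AutQ Λ.F)),
        H17C.clsRep S ℚ Λ.F (h : H17C.AutQ Λ.F) (jHom hS hinj hsurj hsu hlf L Λ hU d) := by
    unfold H17C.clsN
    show ((∑ h : (⊤ : Subgroup (H17C.AutQ Λ.F)), H17C.clsRep S ℚ Λ.F (h : H17C.AutQ Λ.F) :
      H17C.ClS S Λ.F →ₗ[ℤ] H17C.ClS S Λ.F)) _ = _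
    rw [LinearMap.sum_apply]
  rw [h1, h2, map_sum]
  let φ : (⊤ : Subgroup (GQ ⧸ L.U)) ≃ (⊤ : Subgroup (H17C.AutQ Λ.F)) :=
    { toFun := fun n => ⟨eL L Λ hU n.1, Subgroup.mem_top _⟩
      invFun := fun h => ⟨(eL L Λ hU).symm h.1, Subgroup.mem_top _⟩
      left_inv := fun n => Subtype.ext ((eL L Λ hU).symm_apply_apply n.1)
      right_inv := fun h => Subtype.ext ((eL L Λ hU).apply_symm_apply h.1) }
  refine Fintype.sum_equiv φ _ _ (fun n => ?_)
  exact jHom_eqv' hS hinj hsurj hsu hlf L Λ hU n.1 d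

/-- the class of an idele of `F` -/
theorem jHom_idele (y : (H17C.KS S Λ.F)ˣ) (b : (BL S L).V) (hb : bval L b = mkB (tI Λ y)) :
    jHom hS hinj hsurj hsu hlf L Λ hU b = H17C.clsMk S Λ.F (Additive.ofMul y, 0) := by
  apply jHom_eq
  rw [hb]
  exact ⟨Λ, le_rfl, y, rfl, by rw [baseAmb_refl]⟩

end inputs

end H22BC

end
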