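/-
W2-C (S55) block C, B-CLS sub-slice T-INJ (helper26): `H26T.h26c_tensorInj S : H22BC.TensorInjStatement S`.
`T_F : F ⊗ ℚ_S → ∏_q Map(GQ, PadicAlgCl q)` is injective: coordinates in a `ℚ`-basis `b` of `F`
(indexed by the embeddings `F → Qb`), trace-dual basis `b*`, `∑_σ σ(b_i) σ(b*_j) = δ_ij`
(`trace_eq_sum_embeddings`); every embedding is the restriction of some `g ∈ GQ`.
Also `orth2` (`∑_i σ(b_i) σ'(b*_i) = δ_σσ'`) for T-SURJ.
-/
import Fermat.Agent.CFT2.C.BCls.Defs_helper22
import Fermat.Agent.CFT2.C.SemilocalUnits_helper26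

set_option autoImplicit false
set_option linter.style.haveILetI false
set_option linter.unusedSectionVars false
set_option linter.unusedVariables false
noncomputable section
namespace H26T

open NumberField H17C H22BC

local notation "Qb" => AlgebraicClosure ℚ
local notation "GQ" => (AlgebraicClosure ℚ ≃ₐ[ℚ] AlgebraicClosure ℚ)

section emb
variable (F : IntermediateField ℚ Qb) [FiniteDimensional ℚ F]

/-- the restriction of `g ∈ GQ` to `F` -/
def resE (g : GQ) : F →ₐ[ℚ] Qb := (g : Qb →ₐ[ℚ] Qb).comp F.val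

theorem resE_apply (g : GQ) (x : F) : resE F g x = g (x : Qb) := rfl

/-- every embedding of `F` extends to `Qb` -/
theorem resE_surjective : Function.Surjective (resE F) := by
  intro σ
  haveI : Algebra.IsAlgebraic ℚ Qb := AlgebraicClosure.isAlgebraic ℚ
  haveI : IsAlgClosure ℚ Qb := ⟨inferInstance, inferInstance⟩
  haveI : Normal ℚ Qb := IsAlgClosure.normal ℚ Qb
  let φ : Qb →ₐ[ℚ] Qb := σ.liftNormal Qb
  have hφ : ∀ x : F, φ (x : Qb) = σ x := fun x => σ.liftNormal_commutes Qb x
  have hbij : Function.Bijective φ := AlgHom.normal_bijective ℚ Qb Qb φ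
  refine ⟨AlgEquiv.ofBijective φ hbij, ?_⟩
  ext x
  exact hφ x

/-- a `ℚ`-basis of `F` indexed by the embeddings -/
def embBasis : Module.Basis (F →ₐ[ℚ] Qb) ℚ F :=
  (Module.finBasis ℚ F).reindex
    (Fintype.equivOfCardEq (by rw [Fintype.card_fin, AlgHom.card ℚ F Qb]))

/-- first orthogonality: `∑_σ σ(b_i) σ(b*_j) = δ_ij` -/
theorem orth1 [DecidableEq (F →ₐ[ℚ] Qb)] (i j : F →ₐ[ℚ] Qb) :
    ∑ σ : F →ₐ[ℚ] Qb, σ (embBasis F i) * σ ((embBasis F).traceDual j)
      = if i = j then 1 else 0 := by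
  have h1 := Module.Basis.trace_mul_traceDual (embBasis F) i j
  have h2 := trace_eq_sum_embeddings (K := ℚ) (L := F) Qb
    (x := embBasis F i * (embBasis F).traceDual j)
  rw [h1] at h2
  simp only [map_mul] at h2
  rw [← h2]
  split_ifs <;> simp

/-- second orthogonality: `∑_i σ(b_i) σ'(b*_i) = δ_σσ'` -/
theorem orth2 [DecidableEq (F →ₐ[ℚ] Qb)] (σ σ' : F →ₐ[ℚ] Qb) :
    ∑ i : F →ₐ[ℚ] Qb, σ (embBasis F i) * σ' ((embBasis F).traceDual i)
      = if σ = σ' then 1 else 0 := by
  let A : Matrix (F →ₐ[ℚ] Qb) (F →ₐ[ℚ] Qb) Qb := Matrix.of fun σ i => σ (embBasis F i)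
  let B : Matrix (F →ₐ[ℚ] Qb) (F →ₐ[ℚ] Qb) Qb :=
    Matrix.of fun σ i => σ ((embBasis F).traceDual i)
  have h1 : A.transpose * B = 1 := by
    ext i j
    rw [Matrix.mul_apply, Matrix.one_apply]
    exact orth1 F i j
  have h2 : B * A.transpose = 1 := mul_eq_one_comm.mp h1
  have h3 : A * B.transpose = 1 := by
    have := congrArg Matrix.transpose h2
    rwa [Matrix.transpose_mul, Matrix.transpose_transpose, Matrix.transpose_one] at this
  have h4 := congrFun (congrFun h3 σ) σ'
  rw [Matrix.mul_apply, Matrix.one_apply] at h4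
  exact h4

end emb

section tensor
variable (S : Finset Nat.Primes) (F : IntermediateField ℚ Qb) [FiniteDimensional ℚ F]

theorem tF_cmbQ (y : (F →ₐ[ℚ] Qb) → QS S) (q : S) (g : GQ) :
    tF S F (H26SU.cmbQ S F (embBasis F) y) q g =
      ∑ a, padicEmbedding ((q : Nat.Primes) : ℕ) (resE F g (embBasis F a)) *
        algebraMap ℚ_[((q : Nat.Primes) : ℕ)] (PadicAlgCl ((q : Nat.Primes) : ℕ)) (y a q) := by
  rw [H26SU.cmbQ_apply, map_sum, Finset.sum_apply, Finset.sum_apply]
  exact Finset.sum_congr rfl (fun a _ => tF_tmul S F _ _ q g)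

/-- **(T-INJ)** -/
theorem h26c_tensorInj : H22BC.TensorInjStatement S := by
  intro F _
  classical
  rw [injective_iff_map_eq_zero]
  intro z hz
  obtain ⟨y, rfl⟩ := H26SU.cmbQ_surj S F (embBasis F) z
  have hy : y = 0 := by
    funext j
    funext q
    choose gσ hgσ using resE_surjective F
    have h1 : ∀ σ : F →ₐ[ℚ] Qb,
        ∑ a, padicEmbedding ((q : Nat.Primes) : ℕ) (σ (embBasis F a)) *
          algebraMap ℚ_[((q : Nat.Primes) : ℕ)] (PadicAlgCl ((q : Nat.Primes) : ℕ)) (y a q)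
          = 0 := by
      intro σ
      have := tF_cmbQ S F y q (gσ σ)
      rw [hz, hgσ] at this
      exact this.symm
    have h2 : ∑ σ : F →ₐ[ℚ] Qb,
        padicEmbedding ((q : Nat.Primes) : ℕ) (σ ((embBasis F).traceDual j)) *
        ∑ a, padicEmbedding ((q : Nat.Primes) : ℕ) (σ (embBasis F a)) *
          algebraMap ℚ_[((q : Nat.Primes) : ℕ)] (PadicAlgCl ((q : Nat.Primes) : ℕ)) (y a q)
        = algebraMap ℚ_[((q : Nat.Primes) : ℕ)] (PadicAlgCl ((q : Nat.Primes) : ℕ)) (y j q) := by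
      simp only [Finset.mul_sum]
      rw [Finset.sum_comm]
      have h3 : ∀ a : F →ₐ[ℚ] Qb, ∑ σ : F →ₐ[ℚ] Qb,
          padicEmbedding ((q : Nat.Primes) : ℕ) (σ ((embBasis F).traceDual j)) *
          (padicEmbedding ((q : Nat.Primes) : ℕ) (σ (embBasis F a)) *
            algebraMap ℚ_[((q : Nat.Primes) : ℕ)] (PadicAlgCl ((q : Nat.Primes) : ℕ)) (y a q))
          = (if a = j then 1 else 0) *
            algebraMap ℚ_[((q : Nat.Primes) : ℕ)] (PadicAlgCl ((q : Nat.Primes) : ℕ)) (y a q) := by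
        intro a
        have h4 := congrArg (padicEmbedding ((q : Nat.Primes) : ℕ)) (orth1 F a j)
        rw [map_sum] at h4
        simp only [map_mul] at h4
        have h5 : padicEmbedding ((q : Nat.Primes) : ℕ) (if a = j then (1 : Qb) else 0)
            = if a = j then 1 else 0 := by
          split_ifs <;> simp
        rw [h5] at h4
        rw [← h4, Finset.sum_mul]
        refine Finset.sum_congr rfl (fun σ _ => ?_)
        ring
      simp only [h3]
      rw [Finset.sum_eq_single j]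
      · simp
      · intro a _ ha
        simp [ha]
      · intro hj
        exact absurd (Finset.mem_univ j) hj
    simp only [h1, mul_zero, Finset.sum_const_zero] at h2
    have h6 : algebraMap ℚ_[((q : Nat.Primes) : ℕ)] (PadicAlgCl ((q : Nat.Primes) : ℕ)) (y j q)
        = algebraMap ℚ_[((q : Nat.Primes) : ℕ)] (PadicAlgCl ((q : Nat.Primes) : ℕ)) 0 := by
      rw [← h2, map_zero]
    exact (algebraMap ℚ_[((q : Nat.Primes) : ℕ)] (PadicAlgCl ((q : Nat.Primes) : ℕ))).injective h6
  rw [hy, map_zero]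

end tensor
end H26T
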