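/-
W2-C (S55) block C, B-CLS sub-slice T-SURJ (helper26):
`H26T.h26c_tensorSurj S : H22BC.TensorSurjStatement S`.
A function `f : ∏_q Map(GQ, PadicAlgCl q)` which is equivariant for the local Galois groups and right
invariant under `Gal(Qb/F)` is `T_F(z)`: `z = ∑_j b_j ⊗ y_j`, `y_j(q) = ∑_σ ι_q(σ b*_j) f_q(σ) ∈ ℚ_q`
(Galois descent for `PadicAlgCl q / ℚ_q`), second orthogonality `orth2`.
-/
import Fermat.Agent.CFT2.C.BCls.TensorInj_helper26

set_option autoImplicit false
set_option linter.style.haveILetI false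
set_option linter.unusedSectionVars false
set_option linter.unusedVariables false
noncomputable section
namespace H26T

open NumberField H17C H22BC

local notation "Qb" => AlgebraicClosure ℚ
local notation "GQ" => (AlgebraicClosure ℚ ≃ₐ[ℚ] AlgebraicClosure ℚ)

section surj
variable (S : Finset Nat.Primes) (F : IntermediateField ℚ Qb) [FiniteDimensional ℚ F]

/-- composition with `g ∈ GQ` permutes the embeddings of `F` -/
def permE (g : GQ) : (F →ₐ[ℚ] Qb) ≃ (F →ₐ[ℚ] Qb) where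
  toFun σ := (g : Qb →ₐ[ℚ] Qb).comp σ
  invFun σ := ((g⁻¹ : GQ) : Qb →ₐ[ℚ] Qb).comp σ
  left_inv σ := by
    ext x
    change g⁻¹ (g (σ x)) = σ x
    exact g.symm_apply_apply (σ x)
  right_inv σ := by
    ext x
    change g (g⁻¹ (σ x)) = σ x
    exact g.apply_symm_apply (σ x)

theorem permE_apply (g : GQ) (σ : F →ₐ[ℚ] Qb) (x : F) : permE F g σ x = g (σ x) := rfl

theorem resE_mul (g h : GQ) : resE F (g * h) = permE F g (resE F h) := rfl

/-- Galois descent for `PadicAlgCl q / ℚ_q` -/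
theorem descent_padic (q : ℕ) [Fact q.Prime] (x : PadicAlgCl q)
    (hx : ∀ τ : PadicAlgCl q ≃ₐ[ℚ_[q]] PadicAlgCl q, τ x = x) :
    ∃ y : ℚ_[q], algebraMap ℚ_[q] (PadicAlgCl q) y = x :=
  (InfiniteGalois.mem_range_algebraMap_iff_fixed (k := ℚ_[q]) (K := PadicAlgCl q) x).mpr hx

/-- **(T-SURJ)** -/
theorem h26c_tensorSurj : H22BC.TensorSurjStatement S := by
  intro F _ _ f hLE hRI
  classical
  choose gσ hgσ using resE_surjective F
  -- `f q g` depends only on the restriction of `g` to `F`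
  have hf : ∀ (q : S) (g : GQ), f q g = f q (gσ (resE F g)) := by
    intro q g
    have hs : (gσ (resE F g))⁻¹ * g ∈ F.fixingSubgroup := by
      rw [IntermediateField.mem_fixingSubgroup_iff]
      intro x hx
      have h1 : gσ (resE F g) x = g x :=
        congrArg (fun σ : F →ₐ[ℚ] Qb => σ ⟨x, hx⟩) (hgσ (resE F g))
      change (gσ (resE F g))⁻¹ (g x) = x
      rw [← h1]
      exact (gσ (resE F g)).symm_apply_apply x
    have := hRI q (gσ (resE F g)) _ hs
    rw [mul_inv_cancel_left] at this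
    exact this
  -- the coefficients
  let c : ∀ q : S, (F →ₐ[ℚ] Qb) → PadicAlgCl ((q : Nat.Primes) : ℕ) := fun q j =>
    ∑ σ : F →ₐ[ℚ] Qb, padicEmbedding ((q : Nat.Primes) : ℕ) (σ ((embBasis F).traceDual j)) *
      f q (gσ σ)
  -- invariance
  have hinv : ∀ (q : S) (j : F →ₐ[ℚ] Qb)
      (τ : PadicAlgCl ((q : Nat.Primes) : ℕ) ≃ₐ[ℚ_[((q : Nat.Primes) : ℕ)]]
        PadicAlgCl ((q : Nat.Primes) : ℕ)), τ (c q j) = c q j := by
    intro q j τ
    change τ (∑ σ : F →ₐ[ℚ] Qb, _) = ∑ σ : F →ₐ[ℚ] Qb, _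
    rw [map_sum]
    refine Fintype.sum_equiv (permE F (localGaloisToGlobal ((q : Nat.Primes) : ℕ) τ)) _ _
      (fun σ => ?_)
    rw [map_mul, ← padicEmbedding_localGaloisToGlobal, ← hLE q τ (gσ σ),
      hf q (localGaloisToGlobal ((q : Nat.Primes) : ℕ) τ * gσ σ), resE_mul, hgσ]
    rfl
  choose y₀ hy₀ using fun (q : S) (j : F →ₐ[ℚ] Qb) =>
    descent_padic ((q : Nat.Primes) : ℕ) (c q j) (hinv q j)
  refine ⟨H26SU.cmbQ S F (embBasis F) (fun j q => y₀ q j), ?_⟩
  funext q g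
  rw [tF_cmbQ]
  simp only [hy₀]
  change ∑ a : F →ₐ[ℚ] Qb, padicEmbedding ((q : Nat.Primes) : ℕ) (resE F g (embBasis F a)) *
    (∑ σ : F →ₐ[ℚ] Qb, padicEmbedding ((q : Nat.Primes) : ℕ) (σ ((embBasis F).traceDual a)) *
      f q (gσ σ)) = f q g
  simp only [Finset.mul_sum]
  rw [Finset.sum_comm]
  have h3 : ∀ σ : F →ₐ[ℚ] Qb, ∑ a : F →ₐ[ℚ] Qb,
      padicEmbedding ((q : Nat.Primes) : ℕ) (resE F g (embBasis F a)) *
      (padicEmbedding ((q : Nat.Primes) : ℕ) (σ ((embBasis F).traceDual a)) * f q (gσ σ))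
      = (if resE F g = σ then 1 else 0) * f q (gσ σ) := by
    intro σ
    have h4 := congrArg (padicEmbedding ((q : Nat.Primes) : ℕ)) (orth2 F (resE F g) σ)
    rw [map_sum] at h4
    simp only [map_mul] at h4
    have h5 : padicEmbedding ((q : Nat.Primes) : ℕ) (if resE F g = σ then (1 : Qb) else 0)
        = if resE F g = σ then 1 else 0 := by
      split_ifs <;> simp
    rw [h5] at h4
    rw [← h4, Finset.sum_mul]
    refine Finset.sum_congr rfl (fun a _ => ?_)
    ring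
  simp only [h3]
  rw [Finset.sum_eq_single (resE F g)]
  · simp only [if_true, one_mul]
    exact (hf q g).symm
  · intro σ _ hσ
    simp [Ne.symm hσ]
  · intro hj
    exact absurd (Finset.mem_univ _) hj

end surj
end H26T
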