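/-
W2-C (S55) block C transport: **B-CLS, unconditional** (helper22, owner):
`H22BC.h22bc_bcls S p hp hpS : H17C.BClsStatement S p`.
Sub-slices: T-INJ, T-SURJ, CAP-REL (helper26), S-UNITS, VAL (helper25), LEVEL-FIELD, UNR-TR (helper9),
CAP (helper6), TOWER + assembly (helper22).
-/
import Fermat.Agent.CFT2.C.BCls.Norm_helper22
import Fermat.Agent.CFT2.C.BCls.SUnits_helper25
import Fermat.Agent.CFT2.C.BCls.TensorInj_helper26
import Fermat.Agent.CFT2.C.BCls.TensorSurj_helper26
import Fermat.Agent.CFT2.C.BCls.CAP_helper6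
import Fermat.Agent.CFT2.C.BCls.CapRel_helper26

set_option autoImplicit false

noncomputable section

namespace H22BC

/-- **(B-CLS)**: for every `S`-level `L` the module `B_L = (I/E)^{U_L}` embeds equivariantly into
the class module `C_F` of the tensor model, with finite cokernel of order prime to `p`
(`p` prime, `p ∈ S`). -/
theorem h22bc_bcls (S : Finset Nat.Primes) (p : ℕ) (hp : p.Prime)
    (hpS : ∃ q ∈ S, ((q : Nat.Primes) : ℕ) = p) : H17C.BClsStatement S p :=
  h22bc_bcls_of S p hp hpS (H26T.h26c_tensorInj S) (H26T.h26c_tensorSurj S)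
    (H25BC.h25bc_sUnits S) (H9BL.levelFieldStmt S)
    (H26CR.h26_capRel S p (H6CAP.h6cap_cap S p))

end H22BC

end
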