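/-
W2-C (S55) block C transport: **B-CLS, strong form** (helper22): `H17X.BClsStrongStatement S p`
(`BClsStatement` for a GIVEN field `F` of the level `L` and a GIVEN restriction isomorphism `e`).
-/
import Fermat.Agent.CFT2.C.BCls.Final_helper22
import Fermat.Agent.CFT2.C3.Defs_helper17

set_option autoImplicit false
set_option linter.unusedSectionVars false
set_option linter.unusedVariables false
set_option linter.style.haveILetI false

noncomputable section

namespace H22BC

open NumberField H14PT H15D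

local notation "Qb" => AlgebraicClosure ℚ
local notation "GQ" => (AlgebraicClosure ℚ ≃ₐ[ℚ] AlgebraicClosure ℚ)

/-- **(B-CLS, strong form)**, from the sub-slices -/
theorem h22bc_bclsStrong_of (S : Finset Nat.Primes) (p : ℕ) (hp : p.Prime)
    (hpS : ∃ q ∈ S, ((q : Nat.Primes) : ℕ) = p)
    (hinj : TensorInjStatement S) (hsurj : TensorSurjStatement S)
    (hsu : SUnitsStatement S) (hlf : LevelFieldStatement S) (hcr : CapRelStatement S p) :
    H17X.BClsStrongStatement S p := by
  have hS : S.Nonempty := by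
    obtain ⟨q, hq, -⟩ := hpS
    exact ⟨q, hq⟩
  intro F hfd hgal hunr L hU e he
  let Λ : Lev S := ⟨F, hfd, hgal, hunr⟩
  have hU' : L.U = Λ.F.fixingSubgroup := hU
  refine ⟨jHom hS hinj hsurj hsu hlf L Λ hU', jHom_injective hS hinj hsurj hsu hlf L Λ hU', ?_,
    range_index_ne_zero hS hinj hsurj hsu hlf L Λ hU',
    range_index_not_dvd hS hinj hsurj hsu hlf L Λ hU' p hp (hcr hp hpS Λ)⟩
  intro g b
  obtain ⟨γ, rfl⟩ := QuotientGroup.mk_surjective g
  have e1 : e (γ : GQ ⧸ L.U) = resL Λ γ := by
    ext x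
    rw [he, resL_coe]
  rw [e1]
  exact jHom_eqv hS hinj hsurj hsu hlf L Λ hU' γ b

/-- **(B-CLS, strong form)**, unconditional (`p` prime, `p ∈ S`) -/
theorem h22bc_bclsStrong (S : Finset Nat.Primes) (p : ℕ) (hp : p.Prime)
    (hpS : ∃ q ∈ S, ((q : Nat.Primes) : ℕ) = p) : H17X.BClsStrongStatement S p :=
  h22bc_bclsStrong_of S p hp hpS (H26T.h26c_tensorInj S) (H26T.h26c_tensorSurj S)
    (H25BC.h25bc_sUnits S) (H9BL.levelFieldStmt S)
    (H26CR.h26_capRel S p (H6CAP.h6cap_cap S p))

end H22BC

end
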